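import Fermat.Agent.S19.Defs
import Fermat.Agent.S27.L.FF

/-!
# S19, layer W, key `S19/W-EVAL` : the evaluation `evalD f D = ∏_P f(P)^{D(P)}`

`NZ f D` : `f ≠ 0` and `f` is a unit at all places of the support of `D`.
-/

set_option autoImplicit false
set_option linter.unusedSectionVars false

noncomputable section

namespace Fermat.Agent.S19

open AlgebraicCurve Fermat.Agent.S37 Fermat.Agent.S27

variable {K F : Type*} [Field K] [Field F] [Algebra K F] [IsAlgClosed K] [CharZero K]

/-- `f ≠ 0` is a unit at all places of the support of `D` -/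
def NZ (f : F) (D : Divisor K F) : Prop := f ≠ 0 ∧ ∀ P ∈ D.support, P.ord f = 0

theorem NZ.ne {f : F} {D : Divisor K F} (h : NZ f D) : f ≠ 0 := h.1

theorem NZ.ord {f : F} {D : Divisor K F} (h : NZ f D) {P : Place K F} (hP : D P ≠ 0) :
    P.ord f = 0 := h.2 P (Finsupp.mem_support_iff.2 hP)

theorem nz_iff {f : F} {D : Divisor K F} : NZ f D ↔ f ≠ 0 ∧ ∀ P, D P ≠ 0 → P.ord f = 0 :=
  ⟨fun h => ⟨h.1, fun _ hP => h.ord hP⟩, fun h => ⟨h.1, fun P hP => h.2 P (Finsupp.mem_support_iff.1 hP)⟩⟩

theorem NZ.zero {f : F} (hf : f ≠ 0) : NZ f (0 : Divisor K F) := ⟨hf, fun P hP => by simp at hP⟩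

theorem NZ.single {f : F} (hf : f ≠ 0) {P : Place K F} (hP : P.ord f = 0) (n : ℤ) :
    NZ f (Finsupp.single P n) := by
  refine ⟨hf, fun Q hQ => ?_⟩
  have := Finsupp.support_single_subset hQ
  rw [Finset.mem_singleton] at this
  rw [this, hP]

theorem NZ.add {f : F} {D E : Divisor K F} (hD : NZ f D) (hE : NZ f E) : NZ f (D + E) := by
  classical
  refine ⟨hD.1, fun P hP => ?_⟩
  rcases Finset.mem_union.1 (Finsupp.support_add hP) with h | h
  · exact hD.2 P h
  · exact hE.2 P h

theorem NZ.neg {f : F} {D : Divisor K F} (hD : NZ f D) : NZ f (-D) :=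
  ⟨hD.1, fun P hP => hD.2 P (by rwa [Finsupp.support_neg] at hP)⟩

theorem NZ.sub {f : F} {D E : Divisor K F} (hD : NZ f D) (hE : NZ f E) : NZ f (D - E) := by
  rw [sub_eq_add_neg]
  exact hD.add hE.neg

theorem NZ.zsmul {f : F} {D : Divisor K F} (hD : NZ f D) (n : ℤ) : NZ f (n • D) :=
  ⟨hD.1, fun P hP => hD.2 P (Finsupp.support_smul hP)⟩

theorem NZ.nsmul {f : F} {D : Divisor K F} (hD : NZ f D) (n : ℕ) : NZ f (n • D) :=
  ⟨hD.1, fun P hP => hD.2 P (Finsupp.support_smul hP)⟩

theorem NZ.mul {f g : F} {D : Divisor K F} (hf : NZ f D) (hg : NZ g D) : NZ (f * g) D :=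
  ⟨mul_ne_zero hf.1 hg.1, fun P hP => by rw [P.ord_mul hf.1 hg.1, hf.2 P hP, hg.2 P hP, add_zero]⟩

theorem NZ.inv {f : F} {D : Divisor K F} (hf : NZ f D) : NZ f⁻¹ D :=
  ⟨inv_ne_zero hf.1, fun P hP => by rw [P.ord_inv, hf.2 P hP, neg_zero]⟩

theorem NZ.div {f g : F} {D : Divisor K F} (hf : NZ f D) (hg : NZ g D) : NZ (f / g) D := by
  rw [div_eq_mul_inv]
  exact hf.mul hg.inv

theorem NZ.one (D : Divisor K F) : NZ (1 : F) D := ⟨one_ne_zero, fun P _ => P.ord_one⟩

theorem NZ.pow {f : F} {D : Divisor K F} (hf : NZ f D) (n : ℕ) : NZ (f ^ n) D := by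
  induction n with
  | zero => rw [pow_zero]; exact NZ.one D
  | succ n ih => rw [pow_succ]; exact ih.mul hf

theorem ord_algebraMap_eq_zero (P : Place K F) (c : K) : P.ord (algebraMap K F c) = 0 := by
  rcases eq_or_ne c 0 with rfl | hc
  · simp
  have h1 : 0 ≤ P.ord (algebraMap K F c) := reg_iff.1 (reg_algebraMap P c)
  have h2 : 0 ≤ P.ord (algebraMap K F c⁻¹) := reg_iff.1 (reg_algebraMap P c⁻¹)
  rw [map_inv₀, P.ord_inv] at h2
  omega

theorem NZ.const {c : K} (hc : c ≠ 0) (D : Divisor K F) : NZ (algebraMap K F c) D :=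
  ⟨by simpa using hc, fun P _ => ord_algebraMap_eq_zero P c⟩

theorem NZ.mono {f : F} {D E : Divisor K F} (hD : NZ f D) (h : E.support ⊆ D.support) : NZ f E :=
  ⟨hD.1, fun P hP => hD.2 P (h hP)⟩

/-! ### the value at a place where `f` is a unit -/

theorem reg_of_ord {P : Place K F} {f : F} (h : P.ord f = 0) : Reg P f := reg_iff.2 h.ge

theorem NZ.val_ne_zero (h : IsFF K F) {f : F} {D : Divisor K F} (hf : NZ f D) {P : Place K F}
    (hP : P ∈ D.support) : val P f ≠ 0 := val_ne_zero_of_ord h (hf.2 P hP) hf.1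

/-! ### additivity in `D` -/

@[simp] theorem evalD_zero (f : F) : evalD f (0 : Divisor K F) = 1 := Finsupp.prod_zero_index

theorem evalD_single (f : F) (P : Place K F) (n : ℤ) :
    evalD f (Finsupp.single P n) = val P f ^ n :=
  Finsupp.prod_single_index (zpow_zero _)

/-- `evalD` as a product over any finite set containing the support -/
theorem evalD_eq_prod (f : F) (D : Divisor K F) {s : Finset (Place K F)} (hs : D.support ⊆ s) :
    evalD f D = ∏ P ∈ s, val P f ^ D P :=
  Finsupp.prod_of_support_subset D hs _ fun _ _ => zpow_zero _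

theorem evalD_add (h : IsFF K F) {f : F} {D E : Divisor K F} (hD : NZ f D) (hE : NZ f E) :
    evalD f (D + E) = evalD f D * evalD f E := by
  classical
  rw [evalD_eq_prod f (D + E) Finsupp.support_add,
    evalD_eq_prod f D (Finset.subset_union_left (s₂ := E.support)),
    evalD_eq_prod f E (Finset.subset_union_right (s₁ := D.support)), ← Finset.prod_mul_distrib]
  refine Finset.prod_congr rfl fun P hP => ?_
  have h0 : val P f ≠ 0 := by
    rcases Finset.mem_union.1 hP with h1 | h1
    · exact hD.val_ne_zero h h1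
    · exact hE.val_ne_zero h h1
  rw [Finsupp.add_apply, zpow_add₀ h0]

theorem evalD_neg (f : F) (D : Divisor K F) : evalD f (-D) = (evalD f D)⁻¹ := by
  rw [evalD_eq_prod f (-D) (s := D.support) (by rw [Finsupp.support_neg]),
    evalD_eq_prod f D (Finset.Subset.refl _), ← Finset.prod_inv_distrib]
  exact Finset.prod_congr rfl fun P _ => by rw [Finsupp.neg_apply, zpow_neg]

theorem evalD_sub (h : IsFF K F) {f : F} {D E : Divisor K F} (hD : NZ f D) (hE : NZ f E) :
    evalD f (D - E) = evalD f D / evalD f E := by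
  rw [sub_eq_add_neg, evalD_add h hD hE.neg, evalD_neg, div_eq_mul_inv]

theorem evalD_zsmul (f : F) (D : Divisor K F) (n : ℤ) : evalD f (n • D) = evalD f D ^ n := by
  rw [evalD_eq_prod f (n • D) (s := D.support) Finsupp.support_smul,
    evalD_eq_prod f D (Finset.Subset.refl _), ← Finset.prod_zpow]
  exact Finset.prod_congr rfl fun P _ => by
    rw [Finsupp.smul_apply, smul_eq_mul, mul_comm, zpow_mul]

theorem evalD_nsmul (f : F) (D : Divisor K F) (n : ℕ) : evalD f (n • D) = evalD f D ^ n := by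
  rw [← natCast_zsmul, evalD_zsmul, zpow_natCast]

theorem evalD_ne_zero (h : IsFF K F) {f : F} {D : Divisor K F} (hD : NZ f D) : evalD f D ≠ 0 := by
  rw [evalD_eq_prod f D (Finset.Subset.refl _)]
  exact Finset.prod_ne_zero_iff.2 fun P hP => zpow_ne_zero _ (hD.val_ne_zero h hP)

/-! ### multiplicativity in `f` -/

theorem evalD_mul (h : IsFF K F) {f g : F} {D : Divisor K F} (hf : NZ f D) (hg : NZ g D) :
    evalD (f * g) D = evalD f D * evalD g D := by
  rw [evalD_eq_prod _ D (Finset.Subset.refl _), evalD_eq_prod _ D (Finset.Subset.refl _),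
    evalD_eq_prod _ D (Finset.Subset.refl _), ← Finset.prod_mul_distrib]
  exact Finset.prod_congr rfl fun P hP => by
    rw [val_mul h (reg_of_ord (hf.2 P hP)) (reg_of_ord (hg.2 P hP)), mul_zpow]

theorem evalD_inv (h : IsFF K F) {f : F} {D : Divisor K F} (hf : NZ f D) :
    evalD f⁻¹ D = (evalD f D)⁻¹ := by
  rw [evalD_eq_prod _ D (Finset.Subset.refl _), evalD_eq_prod _ D (Finset.Subset.refl _),
    ← Finset.prod_inv_distrib]
  exact Finset.prod_congr rfl fun P hP => by rw [val_inv h (hf.2 P hP) hf.1, inv_zpow]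

theorem evalD_div (h : IsFF K F) {f g : F} {D : Divisor K F} (hf : NZ f D) (hg : NZ g D) :
    evalD (f / g) D = evalD f D / evalD g D := by
  rw [div_eq_mul_inv, evalD_mul h hf hg.inv, evalD_inv h hg, div_eq_mul_inv]

theorem evalD_algebraMap (h : IsFF K F) {c : K} (hc : c ≠ 0) (D : Divisor K F) :
    evalD (algebraMap K F c) D = c ^ Divisor.degree D := by
  classical
  rw [evalD_eq_prod _ D (Finset.Subset.refl _), h.degree_eq_sum, Finsupp.sum]
  have key : ∀ s : Finset (Place K F), ∏ P ∈ s, c ^ D P = c ^ ∑ P ∈ s, D P := by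
    intro s
    induction s using Finset.induction_on with
    | empty => simp
    | insert a s ha ih => rw [Finset.prod_insert ha, Finset.sum_insert ha, ih, zpow_add₀ hc]
  rw [← key]
  exact Finset.prod_congr rfl fun P _ => by rw [val_algebraMap h]

theorem evalD_one (h : IsFF K F) (D : Divisor K F) : evalD (1 : F) D = 1 := by
  have := evalD_algebraMap h (one_ne_zero (α := K)) D
  rwa [map_one, one_zpow] at this

theorem evalD_pow (h : IsFF K F) {f : F} {D : Divisor K F} (hf : NZ f D) (n : ℕ) :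
    evalD (f ^ n) D = evalD f D ^ n := by
  induction n with
  | zero => rw [pow_zero, pow_zero, evalD_one h]
  | succ n ih => rw [pow_succ, pow_succ, evalD_mul h (hf.pow n) hf, ih]

/-! ### supports, transport -/

theorem evalD_congr {f g : F} {D : Divisor K F} (h : ∀ P ∈ D.support, val P f = val P g) :
    evalD f D = evalD g D :=
  Finset.prod_congr rfl fun P hP => by
    change val P f ^ D P = val P g ^ D P
    rw [h P hP]

theorem NZ.tr {f : F} {D : Divisor K F} (hf : NZ f D) (g : SemilinearAut K F) :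
    NZ (g • f) (g • D) := by
  refine nz_iff.2 ⟨fun h0 => hf.1 ?_, fun P hP => ?_⟩
  · have h2 : g⁻¹ • (g • f) = g⁻¹ • (0 : F) := congrArg (fun z => g⁻¹ • z) h0
    rwa [inv_smul_smul, smul_zero] at h2
  · rw [SemilinearAut.divisor_smul_apply] at hP
    rw [L.ord_smul']
    exact hf.ord hP

theorem evalD_tr (h : IsFF K F) (g : SemilinearAut K F) {f : F} {D : Divisor K F} (hf : NZ f D) :
    evalD (g • f) (g • D) = SemilinearAut.baseAut g (evalD f D) := by
  classical
  have hs : (g • D).support ⊆ D.support.image (g • ·) := by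
    rw [SemilinearAut.divisor_smul_def]
    exact Finsupp.mapDomain_support
  rw [evalD_eq_prod _ _ hs, Finset.prod_image fun a _ b _ hab => MulAction.injective g hab,
    evalD_eq_prod _ D (Finset.Subset.refl _), map_prod]
  refine Finset.prod_congr rfl fun P hP => ?_
  rw [SemilinearAut.divisor_smul_apply_smul, L.val_smul h g P (reg_of_ord (hf.2 P hP)), map_zpow₀]

end Fermat.Agent.S19
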