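import Fermat.Agent.S19.Defs
import Fermat.Agent.S27.L.FF

/-!
# S19 / W / Approx : strong approximation and the moving lemma      [key S19/W-APPROX]

* `approx` : `AR.exists_sup_eq_top h` gives `N` with `repartitionsOf D ⊔ principalRepartitions K F = ⊤` for `N ≤ deg D`.
  Take `Q ∉ T` (`infinite_place`, `Infinite.exists_notMem_finset`), `D = - m` on `T`, `D Q` large (degree = sum of the coefficients:
  `IsFF.degree_eq_sum`, or `Divisor.degree_single` + `h.deg_eq_one`), `α = ∑ P ∈ T, sgl P (y P)` (`AR.coe_sum`, `AR.sgl_apply_self`, `AR.sgl_apply_ne`).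
  `α = β + cst f'` (`Submodule.mem_sup`, `AR.mem_principal_iff`), `β ∈ repartitionsOf D` (`mem_repartitionsOf_iff`):
  at `P ∈ T`: `y P - f' = β P` is `0` or has `ord ≥ m`.  `f = f'` (`ord (-z) = ord z`: `Place.ord_mul` with `-1`, or via `adicValuation`, `Valuation.map_neg`/`map_sub_swap`).
* `exists_ord_eq` : `y P` with `ord_P (y P) = d P` (`AR.exists_unif`, `Place.ord_zpow`); `approx` with `m > d P` for all `P ∈ T`
  (`m = 1 + ∑ |d P|` or `T.sup'`); `ord_P f = ord_P (y P)` (ultrametric: work with `P.adicValuation`, `Valuation.map_add_eq_of_lt_left`, or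
  `S24`/`RiemannAux` ord lemmas).  If `T = ∅` take `f = 1`.  `f ≠ 0`: if `T` is nonempty and `f = 0` then `f - y P = - y P` has ord `d P < m`, not `0`.
-/

set_option autoImplicit false

noncomputable section

namespace Fermat.Agent.S19.W

open AlgebraicCurve Fermat.Agent.S37 Fermat.Agent.S27

variable {K F : Type*} [Field K] [Field F] [Algebra K F] [IsAlgClosed K] [CharZero K]

theorem degree_single' (h : IsFF K F) (P : Place K F) (n : ℤ) :
    Divisor.degree (Finsupp.single P n : Divisor K F) = n := by
  have : (Finsupp.single P n : Divisor K F) = n • Finsupp.single P 1 := by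
    rw [Finsupp.smul_single, smul_eq_mul, mul_one]
  rw [this, map_zsmul, RiemannAux.degree_single_one h, smul_eq_mul, mul_one]

omit [IsAlgClosed K] [CharZero K] in
theorem ord_neg' (P : Place K F) (z : F) : P.ord (-z) = P.ord z := by
  simp only [Place.ord, Valuation.map_neg]

/-- strong approximation -/
theorem approx (h : IsFF K F) (T : Finset (Place K F)) (y : Place K F → F) (m : ℤ) :
    ∃ f : F, ∀ P ∈ T, f - y P = 0 ∨ m ≤ P.ord (f - y P) := by
  classical
  obtain ⟨N, hN⟩ := AR.exists_sup_eq_top h
  have := infinite_place h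
  obtain ⟨Q, hQ⟩ := Infinite.exists_notMem_finset T
  set D : Divisor K F := (∑ P ∈ T, Finsupp.single P (-m)) + Finsupp.single Q (N + T.card * m) with hD
  have hdeg : Divisor.degree D = N := by
    rw [hD, map_add, map_sum, degree_single' h]
    simp only [degree_single' h, Finset.sum_const, nsmul_eq_mul]
    ring
  have hDP : ∀ P ∈ T, D P = -m := by
    intro P hP
    rw [hD, Finsupp.add_apply, Finsupp.finsetSum_apply, Finset.sum_eq_single P]
    · rw [Finsupp.single_eq_same, Finsupp.single_eq_of_ne, add_zero]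
      rintro rfl
      exact hQ hP
    · intro b _ hb
      exact Finsupp.single_eq_of_ne (Ne.symm hb)
    · intro hP'
      exact absurd hP hP'
  have htop := hN D hdeg.ge
  set α : ↥(repartitions K F) := ∑ P ∈ T, sgl P (y P) with hα
  have hmem : α ∈ repartitionsOf D ⊔ principalRepartitions K F := by
    rw [htop]; trivial
  obtain ⟨β, hβ, γ, hγ, hsum⟩ := Submodule.mem_sup.1 hmem
  obtain ⟨f, rfl⟩ := AR.mem_principal_iff.1 hγ
  refine ⟨f, fun P hP => ?_⟩
  have h1 : α.1 P = y P := by
    rw [hα, AR.coe_sum, Finset.sum_eq_single P]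
    · exact AR.sgl_apply_self P _
    · intro b _ hb
      exact AR.sgl_apply_ne (Ne.symm hb) _
    · intro hP'
      exact absurd hP hP'
  have h2 : β.1 P + f = y P := by
    rw [← h1, ← hsum, AR.coe_add, AR.cst_apply]
  have h3 := mem_repartitionsOf_iff.1 hβ P
  have h4 : f - y P = -(β.1 P) := by rw [← h2]; ring
  rw [hDP P hP, neg_neg] at h3
  rcases h3 with h3 | h3
  · left
    rw [h4]
    simpa using h3
  · right
    rw [h4, ord_neg']
    exact h3

/-- functions with prescribed orders on a finite set -/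
theorem exists_ord_eq (h : IsFF K F) (T : Finset (Place K F)) (d : Place K F → ℤ) :
    ∃ f : F, f ≠ 0 ∧ ∀ P ∈ T, P.ord f = d P := by
  classical
  rcases T.eq_empty_or_nonempty with rfl | hT
  · exact ⟨1, one_ne_zero, fun P hP => absurd hP (Finset.notMem_empty P)⟩
  have hy : ∀ P : Place K F, ∃ y : F, y ≠ 0 ∧ P.ord y = d P := by
    intro P
    obtain ⟨π, hπ⟩ := AR.exists_unif P
    have hπ0 : π ≠ 0 := by
      rintro rfl
      rw [Place.ord_zero] at hπ
      omega
    exact ⟨π ^ d P, zpow_ne_zero _ hπ0, by rw [Place.ord_zpow, hπ, mul_one]⟩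
  choose y hy0 hy using hy
  set m : ℤ := 1 + ∑ P ∈ T, |d P| with hm
  have hmd : ∀ P ∈ T, d P < m := by
    intro P hP
    have h1 : |d P| ≤ ∑ P ∈ T, |d P| :=
      Finset.single_le_sum (f := fun P => |d P|) (fun i _ => abs_nonneg _) hP
    have h2 := le_abs_self (d P)
    omega
  obtain ⟨f, hf⟩ := approx h T y m
  have key : ∀ P ∈ T, f ≠ 0 ∧ P.ord f = d P := by
    intro P hP
    rcases hf P hP with h1 | h1
    · rw [sub_eq_zero] at h1
      rw [h1]
      exact ⟨hy0 P, hy P⟩
    · by_cases h0 : f - y P = 0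
      · rw [sub_eq_zero] at h0
        rw [h0]
        exact ⟨hy0 P, hy P⟩
      have h2 : P.adicValuation (f - y P) < P.adicValuation (y P) := by
        rw [P.adicValuation_eq_exp_neg_ord h0, P.adicValuation_eq_exp_neg_ord (hy0 P),
          WithZero.exp_lt_exp, hy P]
        have := hmd P hP
        omega
      have h3 : P.adicValuation f = P.adicValuation (y P) := by
        have := Valuation.map_add_eq_of_lt_left P.adicValuation h2
        rwa [add_sub_cancel] at this
      have hf0 : f ≠ 0 := by
        rintro rfl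
        rw [map_zero] at h3
        exact P.adicValuation_ne_zero (hy0 P) h3.symm
      refine ⟨hf0, ?_⟩
      rw [← hy P]
      simp only [Place.ord, h3]
  obtain ⟨P0, hP0⟩ := hT
  exact ⟨f, (key P0 hP0).1, fun P hP => (key P hP).2⟩

/-- the moving lemma -/
theorem move (h : IsFF K F) (D : Divisor K F) (S : Finset (Place K F)) :
    ∃ f : F, f ≠ 0 ∧ ∀ P ∈ S, D P + P.ord f = 0 := by
  obtain ⟨f, hf, h1⟩ := exists_ord_eq h S (fun P => - D P)
  exact ⟨f, hf, fun P hP => by rw [h1 P hP]; omega⟩

end Fermat.Agent.S19.W
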