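import Fermat.Agent.S19.W.Recip
import Fermat.Agent.S19.W.Approx

/-!
# S19 / W / Chi : the characters `chi y`      [keys S19/W-CHI-a (down to `wp_congr`), S19/W-CHI-b (the rest)]

Everything follows from `W.recip`, `W.move` (cite them, they are being proved elsewhere) and `W/Eval.lean` (`NZ`, `evalD_*`).
Models for the `cls` / `Pic0.mk` manipulations: `S19/ND/Rep.lean` (`nd_cls_of_mem`, `nd_mk_eq_zero_iff`, `nd_degree_eq_zero`, `nd_exists_rep`: COPY the proofs, do not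
import that file: it imports `W/Main.lean`) and `S27/AJ/Cls.lean` (same lemmas over `ℂ`).

* `degree_eq_zero` = `nd_degree_eq_zero`.
* `exists_of_cl_eq` : `cls a'.D - cls a.D = 0`, so `a'.D - a.D` is principal `= div φ`; `a'.u / (a.u * φ^n)` has `ord = 0` everywhere, so it is a constant `c ≠ 0`
  (`S27.exists_eq_algebraMap`, `reg_iff`).
* `wp_congr` : on `supp y.D`: `a.D = a'.D = 0`, so `ord φ = 0`, `ord a.u = 0`.  `evalD a'.u y.D = c ^ deg y.D * evalD a.u y.D * (evalD φ y.D)^n` (`evalD_mul`, `evalD_pow`,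
  `evalD_algebraMap`, `degree_eq_zero`).  `a'.D = a.D + Dφ` (`Dφ := AR.dv h φ`, `AR.dv_apply`; or `HasPrincipalDivisors.exists_divisor`), `supp Dφ ⊆ supp a.D ∪ supp a'.D` where `ord y.u = n * y.D P = 0`:
  `evalD y.u a'.D = evalD y.u a.D * evalD y.u Dφ` (`evalD_add`), and `evalD y.u Dφ = evalD φ (n • y.D) = (evalD φ y.D)^n` (`recip` with `Df = n • y.D`, `evalD_nsmul`).
* `exists_TD` : `x = Pic0.mk D0`, `move` gives `f`, `D = D0 + div f`; `n • x = 0` gives `u` with `div u = n D`.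
* `chi_eq` : `chi y a.cl = wp h.choose y` (`dif_pos ⟨a, rfl, hd⟩`) `= wp a y` by `exists_of_cl_eq` + `wp_congr`.
* `chi_add` : `a`, `a'` from `exists_TD` with `S = y.D.support`; `TD.add a a'`; `evalD_mul`, `evalD_add`.
* `chi_tr` : `a` from `exists_TD`; `(a.tr g).cl = g • a.cl` (definition of the action on `Pic0`: `SemilinearAut` section of `Def_AlgebraicCurve_BaseChangeGalois`),
  `evalD_tr`, `map_div₀`.
* `chi_congr` : `a` from `exists_TD` with `S = y.D.support ∪ y'.D.support`; `wp a y = (wp y a)⁻¹`; `wp_congr` with the roles exchanged.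
-/

set_option autoImplicit false
set_option linter.unusedSectionVars false
set_option linter.style.haveILetI false

noncomputable section

namespace Fermat.Agent.S19.W

open AlgebraicCurve Fermat.Agent.S37 Fermat.Agent.S27

variable {K F : Type*} [Field K] [Field F] [Algebra K F] [IsAlgClosed K] [CharZero K]

/-! ### [S19/W-CHI-a] -/

theorem chiaux_cls_of_mem {D : Divisor K F} (hD : D ∈ Divisor.degZero (K := K) (F := F)) :
    cls D = Pic0.mk ⟨D, hD⟩ := by
  rw [cls, dif_pos hD]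

theorem chiaux_mk_eq_zero_iff (D : Divisor.degZero (K := K) (F := F)) :
    Pic0.mk D = 0 ↔ (D : Divisor K F) ∈ Divisor.principal (K := K) (F := F) := by
  rw [Pic0.mk, QuotientAddGroup.eq_zero_iff, AddSubgroup.mem_addSubgroupOf]

theorem chiaux_ord_pow (P : Place K F) (f : F) (m : ℕ) : P.ord (f ^ m) = m * P.ord f := by
  have := P.ord_zpow f (m : ℤ)
  rwa [zpow_natCast] at this

theorem degree_eq_zero (h : IsFF K F) {n : ℕ} (hn : 0 < n) (a : TD K F n) :
    Divisor.degree a.D = 0 := by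
  haveI := h.hasPrincipalDivisors
  obtain ⟨E, hE, hE0⟩ := HasPrincipalDivisors.exists_divisor (K := K) a.u a.u_ne
  have h1 : E = n • a.D := by
    ext P
    rw [hE, a.ord_u, Finsupp.smul_apply, nsmul_eq_mul]
  rw [h1, map_nsmul, nsmul_eq_mul] at hE0
  rcases mul_eq_zero.1 hE0 with h2 | h2
  · exact absurd (by exact_mod_cast h2) hn.ne'
  · exact h2

theorem chiaux_cl (h : IsFF K F) {n : ℕ} (hn : 0 < n) (a : TD K F n) :
    a.cl = Pic0.mk ⟨a.D, degree_eq_zero h hn a⟩ :=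
  chiaux_cls_of_mem _

/-- `u` of one datum is a unit on the support of a disjoint one -/
theorem chiaux_nz {n : ℕ} {a y : TD K F n} (hd : a.Disj y) : NZ a.u y.D := by
  refine ⟨a.u_ne, fun P hP => ?_⟩
  have h1 : P ∉ a.D.support := fun h2 => (Finset.disjoint_left.1 hd) h2 hP
  rw [a.ord_u, Finsupp.notMem_support_iff.1 h1, mul_zero]

theorem exists_of_cl_eq (h : IsFF K F) {n : ℕ} (hn : 0 < n) (a a' : TD K F n) (hcl : a.cl = a'.cl) :
    ∃ (φ : F) (c : K), φ ≠ 0 ∧ c ≠ 0 ∧ (∀ P, a'.D P = a.D P + P.ord φ) ∧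
      a'.u = algebraMap K F c * a.u * φ ^ n := by
  rw [chiaux_cl h hn a, chiaux_cl h hn a'] at hcl
  have h1 : Pic0.mk ((⟨a'.D, degree_eq_zero h hn a'⟩ : Divisor.degZero (K := K) (F := F)) -
      ⟨a.D, degree_eq_zero h hn a⟩) = 0 := by
    have : Pic0.mk ((⟨a'.D, degree_eq_zero h hn a'⟩ : Divisor.degZero (K := K) (F := F)) -
      ⟨a.D, degree_eq_zero h hn a⟩) = Pic0.mk ⟨a'.D, degree_eq_zero h hn a'⟩ -
        Pic0.mk ⟨a.D, degree_eq_zero h hn a⟩ := rfl
    rw [this, hcl, sub_self]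
  rw [chiaux_mk_eq_zero_iff] at h1
  obtain ⟨φ, hφ, hφD⟩ := h1
  have hφD' : ∀ P : Place K F, P.ord φ = a'.D P - a.D P := fun P => by
    rw [← hφD P]; rfl
  have hden : a.u * φ ^ n ≠ 0 := mul_ne_zero a.u_ne (pow_ne_zero _ hφ)
  obtain ⟨c, hc⟩ := exists_eq_algebraMap h (y := a'.u * (a.u * φ ^ n)⁻¹) fun P => by
    rw [reg_iff, P.ord_mul a'.u_ne (inv_ne_zero hden), P.ord_inv,
      P.ord_mul a.u_ne (pow_ne_zero _ hφ), chiaux_ord_pow, a.ord_u, a'.ord_u, hφD']
    apply le_of_eq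
    ring
  refine ⟨φ, c, hφ, ?_, fun P => by rw [hφD']; ring, ?_⟩
  · rintro rfl
    rw [map_zero] at hc
    exact mul_ne_zero a'.u_ne (inv_ne_zero hden) hc
  · rw [mul_assoc, ← hc, inv_mul_cancel_right₀ hden]

theorem wp_congr (h : IsFF K F) {n : ℕ} (hn : 0 < n) (y a a' : TD K F n) (hd : a.Disj y)
    (hd' : a'.Disj y) (φ : F) (hφ : φ ≠ 0) (c : K) (hc : c ≠ 0)
    (hD : ∀ P, a'.D P = a.D P + P.ord φ) (hu : a'.u = algebraMap K F c * a.u * φ ^ n) :
    wp a' y = wp a y := by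
  haveI := h.hasPrincipalDivisors
  obtain ⟨Dφ, hDφ, -⟩ := HasPrincipalDivisors.exists_divisor (K := K) φ hφ
  have hy0 : ∀ P : Place K F, P.ord φ ≠ 0 → y.D P = 0 := by
    intro P hP
    by_contra hy
    have hyS : P ∈ y.D.support := Finsupp.mem_support_iff.2 hy
    have h1 : a.D P = 0 := by
      by_contra h2
      exact (Finset.disjoint_left.1 hd) (Finsupp.mem_support_iff.2 h2) hyS
    have h1' : a'.D P = 0 := by
      by_contra h2
      exact (Finset.disjoint_left.1 hd') (Finsupp.mem_support_iff.2 h2) hyS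
    apply hP
    have := hD P
    rw [h1, h1'] at this
    omega
  have nz1 : NZ a.u y.D := chiaux_nz hd
  have nz2 : NZ φ y.D := ⟨hφ, fun P hP => by
    by_contra h1
    exact (Finsupp.mem_support_iff.1 hP) (hy0 P h1)⟩
  have nz3 : NZ y.u a.D := chiaux_nz hd.symm
  have nz4 : NZ y.u Dφ := ⟨y.u_ne, fun P hP => by
    have h1 : P.ord φ ≠ 0 := by rw [← hDφ]; exact Finsupp.mem_support_iff.1 hP
    rw [y.ord_u, hy0 P h1, mul_zero]⟩
  have e1 : evalD a'.u y.D = evalD a.u y.D * evalD φ y.D ^ n := by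
    rw [hu, evalD_mul h ((NZ.const hc _).mul nz1) (nz2.pow n), evalD_mul h (NZ.const hc _) nz1,
      evalD_algebraMap h hc, degree_eq_zero h hn y, zpow_zero, one_mul, evalD_pow h nz2]
  have e2 : a'.D = a.D + Dφ := by
    ext P
    rw [Finsupp.add_apply, hD, hDφ]
  have e3 : evalD y.u Dφ = evalD φ y.D ^ n := by
    rw [← evalD_nsmul]
    refine recip h y.u_ne hφ (n • y.D) Dφ (fun P => ?_) hDφ fun P => ?_
    · rw [Finsupp.smul_apply, nsmul_eq_mul, y.ord_u]
    · by_cases h1 : P.ord φ = 0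
      · exact Or.inr h1
      · left
        rw [y.ord_u, hy0 P h1, mul_zero]
  have hX : evalD φ y.D ^ n ≠ 0 := pow_ne_zero _ (evalD_ne_zero h nz2)
  unfold wp
  rw [e1, e2, evalD_add h nz3 nz4, e3, mul_div_mul_right _ _ hX]

/-! ### [S19/W-CHI-b] -/

theorem exists_TD (h : IsFF K F) {n : ℕ} (hn : 0 < n) (x : Pic0 K F) (hx : n • x = 0)
    (S : Finset (Place K F)) : ∃ a : TD K F n, a.cl = x ∧ Disjoint a.D.support S := by
  haveI := h.hasPrincipalDivisors
  obtain ⟨D0, rfl⟩ := Pic0.mk_surjective x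
  obtain ⟨f, hf, hfS⟩ := move h (D0 : Divisor K F) S
  obtain ⟨Df, hDf, hdeg⟩ := HasPrincipalDivisors.exists_divisor (K := K) f hf
  have hx' : Pic0.mk (n • D0) = 0 := hx
  rw [chiaux_mk_eq_zero_iff] at hx'
  obtain ⟨u0, hu0, hu0D⟩ := hx'
  have hu0D' : ∀ P : Place K F, P.ord u0 = n * (D0 : Divisor K F) P := fun P => by
    rw [← hu0D P]; simp
  let a : TD K F n :=
    { D := (D0 : Divisor K F) + Df
      u := u0 * f ^ n
      u_ne := mul_ne_zero hu0 (pow_ne_zero _ hf)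
      ord_u := fun P => by
        rw [P.ord_mul hu0 (pow_ne_zero _ hf), chiaux_ord_pow, hu0D', Finsupp.add_apply, hDf]
        ring }
  refine ⟨a, ?_, ?_⟩
  · rw [chiaux_cl h hn a]
    have h1 : (⟨a.D, degree_eq_zero h hn a⟩ : Divisor.degZero (K := K) (F := F)) =
        D0 + ⟨Df, hdeg⟩ := Subtype.ext rfl
    rw [h1, Pic0.mk_add]
    have h2 : Pic0.mk (⟨Df, hdeg⟩ : Divisor.degZero (K := K) (F := F)) = 0 := by
      rw [chiaux_mk_eq_zero_iff]
      exact ⟨f, hf, hDf⟩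
    rw [h2, add_zero]
  · rw [Finset.disjoint_left]
    intro P hP hPS
    apply Finsupp.mem_support_iff.1 hP
    show ((D0 : Divisor K F) + Df) P = 0
    rw [Finsupp.add_apply, hDf]
    exact hfS P hPS

theorem chi_eq (h : IsFF K F) {n : ℕ} (hn : 0 < n) (y a : TD K F n) (hd : a.Disj y) :
    chi y a.cl = wp a y := by
  have hex : ∃ a' : TD K F n, a'.cl = a.cl ∧ a'.Disj y := ⟨a, rfl, hd⟩
  rw [chi, dif_pos hex]
  obtain ⟨h1, h2⟩ := hex.choose_spec
  obtain ⟨φ, c, hφ, hc, hD, hu⟩ := exists_of_cl_eq h hn a hex.choose h1.symm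
  exact wp_congr h hn y a hex.choose hd h2 φ hφ c hc hD hu

theorem wp_ne_zero (h : IsFF K F) {n : ℕ} (y a : TD K F n) (hd : a.Disj y) : wp a y ≠ 0 :=
  div_ne_zero (evalD_ne_zero h (chiaux_nz hd)) (evalD_ne_zero h (chiaux_nz hd.symm))

theorem wp_symm {n : ℕ} (y a : TD K F n) : wp a y = (wp y a)⁻¹ := by
  unfold wp
  rw [inv_div]

theorem chi_add (h : IsFF K F) {n : ℕ} (hn : 0 < n) (y : TD K F n) (x x' : Pic0 K F)
    (hx : n • x = 0) (hx' : n • x' = 0) : chi y (x + x') = chi y x * chi y x' := by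
  classical
  obtain ⟨a, rfl, hd⟩ := exists_TD h hn x hx y.D.support
  obtain ⟨a', rfl, hd'⟩ := exists_TD h hn x' hx' y.D.support
  let b : TD K F n :=
    { D := a.D + a'.D
      u := a.u * a'.u
      u_ne := mul_ne_zero a.u_ne a'.u_ne
      ord_u := fun P => by
        rw [P.ord_mul a.u_ne a'.u_ne, a.ord_u, a'.ord_u, Finsupp.add_apply]
        ring }
  have hb : b.cl = a.cl + a'.cl := by
    rw [chiaux_cl h hn b, chiaux_cl h hn a, chiaux_cl h hn a', ← Pic0.mk_add]
    rfl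
  have hbd : b.Disj y := by
    refine Finset.disjoint_of_subset_left Finsupp.support_add ?_
    exact Finset.disjoint_union_left.2 ⟨hd, hd'⟩
  rw [← hb, chi_eq h hn y b hbd, chi_eq h hn y a hd, chi_eq h hn y a' hd']
  unfold wp
  show evalD (a.u * a'.u) y.D / evalD y.u (a.D + a'.D) = _
  have hd1 : a.Disj y := hd
  have hd2 : a'.Disj y := hd'
  rw [evalD_mul h (chiaux_nz hd1) (chiaux_nz hd2),
    evalD_add h (chiaux_nz hd1.symm) (chiaux_nz hd2.symm), mul_div_mul_comm]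

theorem chi_ne_zero (h : IsFF K F) {n : ℕ} (hn : 0 < n) (y : TD K F n) (x : Pic0 K F) :
    chi y x ≠ 0 := by
  by_cases hex : ∃ a : TD K F n, a.cl = x ∧ a.Disj y
  · rw [chi, dif_pos hex]
    exact wp_ne_zero h y _ hex.choose_spec.2
  · rw [chi, dif_neg hex]
    exact one_ne_zero

theorem chi_tr (h : IsFF K F) {n : ℕ} (hn : 0 < n) (g : SemilinearAut K F) (y : TD K F n)
    (x : Pic0 K F) (hx : n • x = 0) :
    chi (y.tr g) (g • x) = SemilinearAut.baseAut g (chi y x) := by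
  obtain ⟨a, rfl, hd⟩ := exists_TD h hn x hx y.D.support
  have hd1 : a.Disj y := hd
  have hcl : (a.tr g).cl = g • a.cl := by
    rw [chiaux_cl h hn a, chiaux_cl h hn (a.tr g), SemilinearAut.pic0_smul_mk]
    rfl
  have hdt : (a.tr g).Disj (y.tr g) := by
    rw [TD.Disj, Finset.disjoint_left]
    intro P hP hP'
    have h1 : a.D (g⁻¹ • P) ≠ 0 := by
      rw [← SemilinearAut.divisor_smul_apply]; exact Finsupp.mem_support_iff.1 hP
    have h2 : y.D (g⁻¹ • P) ≠ 0 := by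
      rw [← SemilinearAut.divisor_smul_apply]; exact Finsupp.mem_support_iff.1 hP'
    exact (Finset.disjoint_left.1 hd) (Finsupp.mem_support_iff.2 h1) (Finsupp.mem_support_iff.2 h2)
  rw [← hcl, chi_eq h hn _ _ hdt, chi_eq h hn y a hd1]
  unfold wp
  show evalD (g • a.u) (g • y.D) / evalD (g • y.u) (g • a.D) = _
  rw [evalD_tr h g (chiaux_nz hd1), evalD_tr h g (chiaux_nz hd1.symm), map_div₀]

theorem chi_congr (h : IsFF K F) {n : ℕ} (hn : 0 < n) (y y' : TD K F n) (f : F) (hf : f ≠ 0)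
    (c : K) (hc : c ≠ 0) (hD : ∀ P, y'.D P = y.D P + P.ord f)
    (hu : y'.u = algebraMap K F c * y.u * f ^ n) (x : Pic0 K F) (hx : n • x = 0) :
    chi y' x = chi y x := by
  classical
  obtain ⟨a, rfl, hd⟩ := exists_TD h hn x hx (y.D.support ∪ y'.D.support)
  have hd1 : a.Disj y := Finset.disjoint_of_subset_right Finset.subset_union_left hd
  have hd2 : a.Disj y' := Finset.disjoint_of_subset_right Finset.subset_union_right hd
  rw [chi_eq h hn y' a hd2, chi_eq h hn y a hd1, wp_symm y' a, wp_symm y a,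
    wp_congr h hn a y y' hd1.symm hd2.symm f hf c hc hD hu]

end Fermat.Agent.S19.W
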