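import Fermat.Agent.S19.Defs
import Fermat.Agent.S19.W.Chi

/-!
# S19, layer W : the Weil characters `chi y` on a general function field (`K` alg. closed, char. 0)
Owner: see the claims table (`S19/W-owner`).  Blueprint: briefing `S19-BLUEPRINT-W`.
This file only re-exports the results of `W/Recip.lean`, `W/Approx.lean`, `W/Chi.lean`.
-/

set_option autoImplicit false

noncomputable section

namespace Fermat.Agent.S19

open AlgebraicCurve Fermat.Agent.S37 Fermat.Agent.S27

variable {K F : Type*} [Field K] [Field F] [Algebra K F] [IsAlgClosed K] [CharZero K]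

/-- **Weil reciprocity** -/
theorem recip (h : IsFF K F) {f g : F} (hf : f ≠ 0) (hg : g ≠ 0) (Df Dg : Divisor K F)
    (hDf : ∀ P, Df P = P.ord f) (hDg : ∀ P, Dg P = P.ord g)
    (hd : ∀ P : Place K F, P.ord f = 0 ∨ P.ord g = 0) : evalD f Dg = evalD g Df :=
  W.recip h hf hg Df Dg hDf hDg hd

/-- **moving lemma** : every divisor is equivalent to one avoiding a given finite set -/
theorem exists_move (h : IsFF K F) (D : Divisor K F) (S : Finset (Place K F)) :
    ∃ f : F, f ≠ 0 ∧ ∀ P ∈ S, D P + P.ord f = 0 :=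
  W.move h D S

/-- torsion classes have data avoiding a given finite set -/
theorem exists_TD (h : IsFF K F) {n : ℕ} (hn : 0 < n) (x : Pic0 K F) (hx : n • x = 0)
    (S : Finset (Place K F)) : ∃ a : TD K F n, a.cl = x ∧ Disjoint a.D.support S :=
  W.exists_TD h hn x hx S

theorem chi_eq (h : IsFF K F) {n : ℕ} (hn : 0 < n) (y a : TD K F n) (hd : a.Disj y) :
    chi y a.cl = wp a y :=
  W.chi_eq h hn y a hd

theorem chi_add (h : IsFF K F) {n : ℕ} (hn : 0 < n) (y : TD K F n) (x x' : Pic0 K F)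
    (hx : n • x = 0) (hx' : n • x' = 0) : chi y (x + x') = chi y x * chi y x' :=
  W.chi_add h hn y x x' hx hx'

theorem chi_ne_zero (h : IsFF K F) {n : ℕ} (hn : 0 < n) (y : TD K F n) (x : Pic0 K F) :
    chi y x ≠ 0 :=
  W.chi_ne_zero h hn y x

theorem chi_tr (h : IsFF K F) {n : ℕ} (hn : 0 < n) (g : SemilinearAut K F) (y : TD K F n)
    (x : Pic0 K F) (hx : n • x = 0) :
    chi (y.tr g) (g • x) = SemilinearAut.baseAut g (chi y x) :=
  W.chi_tr h hn g y x hx

theorem chi_congr (h : IsFF K F) {n : ℕ} (hn : 0 < n) (y y' : TD K F n) (f : F) (hf : f ≠ 0)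
    (c : K) (hc : c ≠ 0) (hD : ∀ P, y'.D P = y.D P + P.ord f)
    (hu : y'.u = algebraMap K F c * y.u * f ^ n) (x : Pic0 K F) (hx : n • x = 0) :
    chi y' x = chi y x :=
  W.chi_congr h hn y y' f hf c hc hD hu x hx

end Fermat.Agent.S19
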