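import Fermat.Agent.S19.W.NormPoly2
import Fermat.Agent.S19.W.Approx

/-!
# S19 / W / NormEval : the value of a norm at a place      [helper28]
-/

set_option autoImplicit false
set_option linter.unusedSectionVars false

noncomputable section

namespace Fermat.Agent.S19.W

open AlgebraicCurve Fermat.Agent.S37 Fermat.Agent.S27 Polynomial

variable {K F F' : Type*} [Field K] [Field F] [Field F'] [Algebra K F] [Algebra K F']
  [IsAlgClosed K] [CharZero K] [Algebra F F'] [IsScalarTower K F F'] [Module.Finite F F']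
  [HasPrincipalDivisors K F']

theorem reg_of_mem_Vs {w : Place K F'} {s : ℕ} {x : F'} (hx : x ∈ Vs w s) : Reg w x := by
  rcases hx with hx | hx
  · rw [hx]
    exact zero_mem _
  · exact reg_iff.2 (le_trans (by positivity) hx)

/-- (B) the reduction of the characteristic polynomial of a function which is constant to the order `e_w` at all `w ∣ v` -/
theorem pb_eq (h : IsFF K F) (h' : IsFF K F') (v : Place K F) {f : F'} (c : Place K F' → K)
    (hf : ∀ w ∈ v.fiber F', f - algebraMap K F' (c w) ∈ Vs w (w.ramificationIndex F))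
    {P₀ : (Ov v)[X]} (hP : P₀.map (Ov v).subtype = cp F f) :
    P₀.map (rho h v) = ∏ w ∈ v.fiber F', (X - C (c w)) ^ (w.ramificationIndex F) := by
  classical
  obtain ⟨t, ht⟩ := AR.exists_unif v
  have hmon := lift_monic h v hP
  have hreg : ∀ w ∈ v.fiber F', Reg w f := by
    intro w hw
    have := (reg_of_mem_Vs (hf w hw)).add (reg_algebraMap w (c w))
    rwa [sub_add_cancel] at this
  have key : ∀ c0 : K, (X - C c0) ^ (∑ w ∈ (v.fiber F').filter (fun w => c w = c0),
      w.ramificationIndex F) ∣ P₀.map (rho h v) := by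
    intro c0
    refine pow_dvd_of_ord h v P₀ c0 t ht _ hmon.ne_zero ?_
    intro a ha
    rw [hP, cp_eval]
    set g : F' := algebraMap F F' (t * algebraMap K F a + algebraMap K F c0) - f with hg
    rcases eq_or_ne g 0 with hg0 | hg0
    · left
      rw [hg0, Algebra.norm_zero]
    · right
      rw [sum_ord h h' v hg0, Nat.cast_sum, Finset.sum_filter]
      refine Finset.sum_le_sum fun w hw => ?_
      split_ifs with hc
      · have h1 : g ∈ Vs w (w.ramificationIndex F) := by
          have e : g = a • algebraMap F F' t - (f - algebraMap K F' (c w)) := by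
            rw [hg, hc, map_add, map_mul, ← IsScalarTower.algebraMap_apply,
              ← IsScalarTower.algebraMap_apply, Algebra.smul_def]
            ring
          rw [e]
          refine (Vs w _).sub_mem ((Vs w _).smul_mem a (Or.inr ?_)) (hf w hw)
          rw [w.ord_restrict, Place.mem_fiber.1 hw, ht, mul_one]
        rcases h1 with h0 | h0
        · exact absurd h0 hg0
        · exact h0
      · refine reg_iff.1 ((reg_algebraMap' v hw ?_).sub (hreg w hw))
        exact ((reg_iff.2 (by rw [ht]; exact zero_le_one)).mul (reg_algebraMap v a)).add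
          (reg_algebraMap v c0)
  have hq : ∏ w ∈ v.fiber F', (X - C (c w)) ^ (w.ramificationIndex F) =
      ∏ c0 ∈ (v.fiber F').image c, (X - C c0) ^ (∑ w ∈ (v.fiber F').filter (fun w => c w = c0),
        w.ramificationIndex F) := by
    rw [← Finset.prod_fiberwise_of_maps_to (t := (v.fiber F').image c) (g := c)
      (fun w hw => Finset.mem_image_of_mem c hw)]
    refine Finset.prod_congr rfl fun c0 _ => ?_
    rw [← Finset.prod_pow_eq_pow_sum]
    refine Finset.prod_congr rfl fun w hw => ?_
    rw [(Finset.mem_filter.1 hw).2]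
  have hdvd : ∏ w ∈ v.fiber F', (X - C (c w)) ^ (w.ramificationIndex F) ∣ P₀.map (rho h v) := by
    rw [hq]
    refine Finset.prod_dvd_of_coprime ?_ (fun c0 _ => key c0)
    intro a _ b _ hab
    exact IsCoprime.pow (isCoprime_X_sub_C_of_isUnit_sub (sub_ne_zero.2 hab).isUnit)
  have hqm : (∏ w ∈ v.fiber F', (X - C (c w)) ^ (w.ramificationIndex F)).Monic :=
    monic_prod_of_monic _ _ fun w _ => (monic_X_sub_C _).pow _
  refine eq_of_monic_of_dvd_of_natDegree_le hqm hmon hdvd ?_
  rw [lift_natDegree h v hP, natDegree_prod_of_monic _ _ (fun w _ => (monic_X_sub_C _).pow _)]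
  simp_rw [(monic_X_sub_C _).natDegree_pow, natDegree_X_sub_C, mul_one]
  rw [sum_e h h' v]

/-- (B) -/
theorem normEval_B (h : IsFF K F) (h' : IsFF K F') (v : Place K F) {f : F'} (c : Place K F' → K)
    (hf : ∀ w ∈ v.fiber F', f - algebraMap K F' (c w) ∈ Vs w (w.ramificationIndex F)) :
    val v (Algebra.norm F f) = ∏ w ∈ v.fiber F', c w ^ (w.ramificationIndex F) := by
  have hf' : ∀ w ∈ v.fiber F', -f - algebraMap K F' (- c w) ∈ Vs w (w.ramificationIndex F) := by
    intro w hw
    have := (Vs w _).neg_mem (hf w hw)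
    rw [map_neg]
    convert this using 1
    ring
  have hreg : ∀ w ∈ v.fiber F', Reg w (-f) := by
    intro w hw
    have := (reg_of_mem_Vs (hf' w hw)).add (reg_algebraMap w (- c w))
    rwa [sub_add_cancel] at this
  obtain ⟨P₀, hP⟩ := exists_lift h h' v hreg
  have h1 := lift_eval h v hP 0
  rw [pb_eq h h' v (fun w => - c w) hf' hP, map_zero, zero_sub, neg_neg, eval_prod] at h1
  rw [← h1]
  refine Finset.prod_congr rfl fun w _ => ?_
  simp

theorem ord_norm_zero (h : IsFF K F) (h' : IsFF K F') (v : Place K F) {g : F'} (hg0 : g ≠ 0)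
    (hg : ∀ w ∈ v.fiber F', w.ord g = 0) : v.ord (Algebra.norm F g) = 0 := by
  rw [sum_ord h h' v hg0]
  exact Finset.sum_eq_zero hg

/-- (A) -/
theorem normEval_A (h : IsFF K F) (h' : IsFF K F') (v : Place K F) {u : F'}
    (hu : ∀ w ∈ v.fiber F', Van w (u - 1)) : val v (Algebra.norm F u) = 1 := by
  have hvan : ∀ w ∈ v.fiber F', Van w (u - algebraMap K F' 1) := by
    intro w hw
    rw [map_one]
    exact hu w hw
  have hregu : ∀ w ∈ v.fiber F', Reg w u := by
    intro w hw
    have h1 : Reg w (u - 1) := by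
      rcases hu w hw with h0 | h0
      · rw [h0]
        exact zero_mem _
      · exact reg_iff.2 h0.le
    have := h1.add (reg_algebraMap w 1)
    rwa [map_one, sub_add_cancel] at this
  have hreg : ∀ w ∈ v.fiber F', Reg w (-u) := fun w hw => (hregu w hw).neg
  obtain ⟨P₀, hP⟩ := exists_lift h h' v hreg
  have hmon := lift_monic h v hP
  have hroots : ∀ b ∈ (P₀.map (rho h v)).roots, b = -1 := by
    intro b hb
    have hb0 : (P₀.map (rho h v)).eval b = 0 := (mem_roots hmon.ne_zero).1 hb
    rw [lift_eval h v hP b, sub_neg_eq_add] at hb0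
    by_contra hne
    have hg : ∀ w ∈ v.fiber F', algebraMap K F' b + u ≠ 0 ∧ w.ord (algebraMap K F' b + u) = 0 := by
      intro w hw
      refine ord_eq_zero_of_rho_ne h' w ⟨_, (reg_algebraMap w b).add (hregu w hw)⟩ ?_
      rw [rho_apply]
      change val w (algebraMap K F' b + u) ≠ 0
      rw [val_add h' (reg_algebraMap w b) (hregu w hw), val_algebraMap h',
        val_eq_of_van h' (hvan w hw)]
      intro h0
      exact hne (eq_neg_of_add_eq_zero_left h0)
    obtain ⟨w0, hw0⟩ := fiber_nonempty h h' v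
    exact val_ne_zero_of_ord h (ord_norm_zero h h' v (hg w0 hw0).1 fun w hw => (hg w hw).2)
      (Algebra.norm_ne_zero_iff.2 (hg w0 hw0).1) hb0
  have hp : P₀.map (rho h v) = (X - C (-1)) ^ (Module.finrank F F') := by
    conv_lhs => rw [(IsAlgClosed.splits (P₀.map (rho h v))).eq_prod_roots_of_monic hmon]
    rw [Multiset.eq_replicate.2 ⟨((IsAlgClosed.splits
      (P₀.map (rho h v))).natDegree_eq_card_roots).symm.trans (lift_natDegree h v hP), hroots⟩,
      Multiset.map_replicate, Multiset.prod_replicate]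
  have h1 := lift_eval h v hP 0
  rw [hp, map_zero, zero_sub, neg_neg] at h1
  rw [← h1]
  simp

/-- **NORMEVAL** -/
theorem normEval (h : IsFF K F) (h' : IsFF K F') (v : Place K F) {f : F'} (hf0 : f ≠ 0)
    (hf : ∀ w ∈ v.fiber F', w.ord f = 0) :
    v.ord (Algebra.norm F f) = 0 ∧
      val v (Algebra.norm F f) = ∏ w ∈ v.fiber F', val w f ^ (w.ramificationIndex F) := by
  refine ⟨ord_norm_zero h h' v hf0 hf, ?_⟩
  have hnpos : 0 < Module.finrank F F' := Module.finrank_pos
  obtain ⟨f1, hf1⟩ := approx h' (v.fiber F') (fun w => algebraMap K F' (val w f))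
    (Module.finrank F F')
  have hV : ∀ w ∈ v.fiber F', f1 - algebraMap K F' (val w f) ∈ Vs w (w.ramificationIndex F) := by
    intro w hw
    rcases hf1 w hw with h0 | h0
    · exact Or.inl h0
    · refine Or.inr (le_trans ?_ h0)
      have h2 : w.ramificationIndex F ≤ ∑ w ∈ v.fiber F', w.ramificationIndex F :=
        Finset.single_le_sum (f := fun w : Place K F' => w.ramificationIndex F)
          (fun _ _ => Nat.zero_le _) hw
      rw [sum_e h h' v] at h2
      exact_mod_cast h2
  have hB := normEval_B h h' v (fun w => val w f) hV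
  have hval1 : ∀ w ∈ v.fiber F', val w f1 = val w f := by
    intro w hw
    refine val_eq_of_van h' ?_
    rcases hf1 w hw with h0 | h0
    · exact Or.inl h0
    · exact Or.inr (lt_of_lt_of_le (by exact_mod_cast hnpos) h0)
  have hreg1 : ∀ w ∈ v.fiber F', Reg w f1 := by
    intro w hw
    have := (reg_of_mem_Vs (hV w hw)).add (reg_algebraMap w (val w f))
    rwa [sub_add_cancel] at this
  have h1ord : ∀ w ∈ v.fiber F', f1 ≠ 0 ∧ w.ord f1 = 0 := by
    intro w hw
    refine ord_eq_zero_of_rho_ne h' w ⟨f1, hreg1 w hw⟩ ?_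
    rw [rho_apply]
    change val w f1 ≠ 0
    rw [hval1 w hw]
    exact val_ne_zero_of_ord h' (hf w hw) hf0
  obtain ⟨w0, hw0⟩ := fiber_nonempty h h' v
  have hf10 : f1 ≠ 0 := (h1ord w0 hw0).1
  have hordu : ∀ w ∈ v.fiber F', w.ord (f / f1) = 0 := by
    intro w hw
    rw [div_eq_mul_inv, w.ord_mul hf0 (inv_ne_zero hf10), w.ord_inv, hf w hw, (h1ord w hw).2]
    rfl
  have hA := normEval_A h h' v (u := f / f1) (by
    intro w hw
    have h3 : val w (f / f1) = 1 := by
      rw [div_eq_mul_inv, val_mul h' (reg_of_ord (hf w hw))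
        (reg_of_ord (by rw [w.ord_inv, (h1ord w hw).2, neg_zero])),
        val_inv h' (h1ord w hw).2 hf10, hval1 w hw,
        mul_inv_cancel₀ (val_ne_zero_of_ord h' (hf w hw) hf0)]
    have h4 := van_sub_val h' (reg_of_ord (hordu w hw))
    rwa [h3, map_one] at h4)
  have hmul : Algebra.norm F f = Algebra.norm F f1 * Algebra.norm F (f / f1) := by
    rw [← map_mul, mul_div_cancel₀ _ hf10]
  rw [hmul, val_mul h (reg_of_ord (ord_norm_zero h h' v hf10 fun w hw => (h1ord w hw).2))
    (reg_of_ord (ord_norm_zero h h' v (div_ne_zero hf0 hf10) hordu)), hB, hA, mul_one]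

end Fermat.Agent.S19.W
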