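import Fermat.Agent.S19.W.Push
import Fermat.Agent.S19.W.NormEval

/-!
# S19, layer W : `evalD_norm` from `val_norm` (= `W.normEval` of helper28, to be cited here when `W/NormEval.lean` lands)

`val_norm` : `v : Place K F`, `f : F'` a unit at all places over `v`:
`val v (N f) = ∏_{w ∣ v} (val w f) ^ e_w`      (see briefing `S19-BLUEPRINT-W`, [W-NORMEVAL]).
`evalD_norm` (PROVED from `val_norm`) : `evalD (N f) D = evalD f (pullback D)`.
-/

set_option autoImplicit false
set_option linter.unusedSectionVars false

noncomputable section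

namespace Fermat.Agent.S19

open AlgebraicCurve Fermat.Agent.S37 Fermat.Agent.S27

variable {K F F' : Type*} [Field K] [Field F] [Field F'] [Algebra K F] [Algebra K F']
  [IsAlgClosed K] [CharZero K] [Algebra F F'] [IsScalarTower K F F'] [Module.Finite F F']
  [HasPrincipalDivisors K F']

/-- `W.normEval` (helper28) -/
theorem val_norm (h : IsFF K F) (h' : IsFF K F') (v : Place K F) {f : F'} (hf0 : f ≠ 0)
    (hf : ∀ w ∈ v.fiber F', w.ord f = 0) :
    val v (Algebra.norm F f) = ∏ w ∈ v.fiber F', (val w f) ^ (w.ramificationIndex F) :=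
  (W.normEval h h' v hf0 hf).2

/-- the norm of a function which is a unit over `v` is a unit at `v` -/
theorem ord_norm_eq_zero (h : IsFF K F) (h' : IsFF K F') (v : Place K F) {f : F'} (hf0 : f ≠ 0)
    (hf : ∀ w ∈ v.fiber F', w.ord f = 0) : v.ord (Algebra.norm F f) = 0 := by
  classical
  obtain ⟨D, hD, -⟩ := HasPrincipalDivisors.exists_divisor (K := K) f hf0
  rw [← FFN.normFormula h (fun w => inertiaDeg_eq_one h h' w) f hf0 D hD v,
    Divisor.pushforward_apply]
  refine Finset.sum_eq_zero fun w _ => ?_
  split_ifs with hw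
  · rw [hD, hf w (Place.mem_fiber.2 hw), zero_mul]
  · rfl

theorem nz_pullback {f : F'} (hf0 : f ≠ 0) {D : Divisor K F}
    (hD : ∀ w : Place K F', D (w.restrict F) ≠ 0 → w.ord f = 0) :
    NZ f (Divisor.pullback F' D) :=
  nz_iff.2 ⟨hf0, fun w hw => hD w fun h0 => hw (by rw [Divisor.pullback_apply, h0, mul_zero])⟩

theorem nz_norm (h : IsFF K F) (h' : IsFF K F') {f : F'} (hf0 : f ≠ 0) {D : Divisor K F}
    (hD : ∀ w : Place K F', D (w.restrict F) ≠ 0 → w.ord f = 0) :
    NZ (Algebra.norm F f) D :=
  nz_iff.2 ⟨Algebra.norm_ne_zero_iff.2 hf0, fun v hv => ord_norm_eq_zero h h' v hf0 fun w hw =>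
    hD w (by rw [Place.mem_fiber.1 hw]; exact hv)⟩

/-- **(NORMEVAL)** -/
theorem evalD_norm (h : IsFF K F) (h' : IsFF K F') {f : F'} (hf0 : f ≠ 0) {D : Divisor K F}
    (hD : ∀ w : Place K F', D (w.restrict F) ≠ 0 → w.ord f = 0) :
    evalD (Algebra.norm F f) D = evalD f (Divisor.pullback F' D) := by
  classical
  induction D using Finsupp.induction with
  | zero => simp
  | single_add v n D hv hn ih =>
    have hv0 : D v = 0 := Finsupp.notMem_support_iff.1 hv
    have h1 : ∀ w : Place K F', (Finsupp.single v n : Divisor K F) (w.restrict F) ≠ 0 →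
        w.ord f = 0 := by
      intro w hw
      refine hD w ?_
      have hwv : w.restrict F = v := by
        by_contra hne
        exact hw (Finsupp.single_eq_of_ne hne)
      rw [Finsupp.add_apply, hwv, hv0, add_zero, Finsupp.single_eq_same]
      exact hn
    have h2 : ∀ w : Place K F', D (w.restrict F) ≠ 0 → w.ord f = 0 := by
      intro w hw
      refine hD w ?_
      have hwv : w.restrict F ≠ v := by
        intro he
        exact hw (by rw [he, hv0])
      rw [Finsupp.add_apply, Finsupp.single_eq_of_ne hwv, zero_add]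
      exact hw
    rw [evalD_add h (nz_norm h h' hf0 h1) (nz_norm h h' hf0 h2), map_add,
      evalD_add h' (nz_pullback hf0 h1) (nz_pullback hf0 h2), ih h2]
    congr 1
    have hfib : ∀ w ∈ v.fiber F', w.ord f = 0 := fun w hw => h1 w (by
      rw [Place.mem_fiber.1 hw, Finsupp.single_eq_same]; exact hn)
    have hsub : (Divisor.pullback F' (Finsupp.single v n : Divisor K F)).support ⊆ v.fiber F' := by
      intro w hw
      have := Divisor.restrict_mem_support_of_mem_support_pullback hw
      have h3 := Finsupp.support_single_subset this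
      rw [Finset.mem_singleton] at h3
      exact Place.mem_fiber.2 h3
    rw [evalD_single, val_norm h h' v hf0 hfib, evalD_eq_prod _ _ hsub, ← Finset.prod_zpow]
    refine Finset.prod_congr rfl fun w hw => ?_
    rw [Divisor.pullback_single_apply_of_restrict_eq (Place.mem_fiber.1 hw), ← zpow_natCast,
      ← zpow_mul, mul_comm]

end Fermat.Agent.S19
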