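import Fermat.Agent.S19.W.Tower

/-!
# S19 / W / Fib : the fibre of `F / E` over the zero of `x ∈ E`, when `[F : K(x)] = [F : E]`      [key S19/W-FIB]

`v0 = w0.restrict E`, `k = v0.ord x`.  `Place.ord_restrict`: `w.ord x = e_w * (w.restrict E).ord x`; so `k ≥ 1`, and `w.ord x = e_w * k > 0` on the fibre of `v0`.
`Z = {w | 0 < w.ord x}` is finite (`S24.finite_zeroPlaces`; `FiniteDimensional K⟮x⟯ F` from `S24.finiteDimensional_adjoin_of_transcendental`), contains the fibre, and
`∑_{w ∈ Z} w.ord x = finrank K⟮x⟯ F = n` (`S24.sum_ord_zeroPlaces`), `∑_{fibre} e_w = n` (`sum_e`).  So `n ≥ ∑_{fibre} e_w k = k n`, hence `k = 1`, `e_w = w.ord x` on the fibre, and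
the places of `Z` outside the fibre contribute `0`: there are none.
`adjoin_gen_eq_top`, `isFF_adjoin`: `E = K⟮g⟯`, generator `AdjoinSimple.gen K g`.
-/

set_option autoImplicit false
set_option linter.unusedSectionVars false
set_option linter.style.haveILetI false

noncomputable section

namespace Fermat.Agent.S19.W

open AlgebraicCurve Fermat.Agent.S37 Fermat.Agent.S27 IntermediateField

variable {K F : Type*} [Field K] [Field F] [Algebra K F] [IsAlgClosed K] [CharZero K]

theorem fib (h : IsFF K F) (E : IntermediateField K F) [Module.Finite E F] (hE : IsFF K E) (x : E)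
    (hx : Transcendental K (x : F)) (hn : Module.finrank K⟮(x : F)⟯ F = Module.finrank E F)
    (w0 : Place K F) (hw0 : 0 < w0.ord (x : F)) (w : Place K F) :
    (w.restrict E = w0.restrict E ↔ 0 < w.ord (x : F)) ∧
      (0 < w.ord (x : F) → (w.ramificationIndex E : ℤ) = w.ord (x : F)) := by
  classical
  haveI := h.hasPrincipalDivisors
  obtain ⟨x0, -, hfin0⟩ := id h
  have hfin : FiniteDimensional K⟮(x : F)⟯ F :=
    S24.Diff.finiteDimensional_adjoin_of_transcendental x0 hfin0 (x : F) hx
  set v0 : Place K E := w0.restrict E with hv0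
  set k : ℤ := v0.ord x with hk
  have hord : ∀ w : Place K F, w.ord (x : F) = (w.ramificationIndex E : ℤ) * (w.restrict E).ord x :=
    fun w => w.ord_restrict (F := E) x
  have hepos : ∀ w : Place K F, (0 : ℤ) < (w.ramificationIndex E : ℤ) := fun w => by
    exact_mod_cast w.ramificationIndex_pos (F := E)
  have hkpos : 0 < k := by
    have h1 := hord w0
    rw [h1] at hw0
    exact (mul_pos_iff_of_pos_left (hepos w0)).1 hw0
  have hZ := S24.finite_zeroPlaces (x : F) hx hfin
  have hsum := S24.sum_ord_zeroPlaces (x : F) hx hfin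
  rw [finsum_mem_eq_finite_toFinset_sum _ hZ, hn] at hsum
  set Zf := hZ.toFinset with hZf
  set Fb := v0.fiber F with hFb
  have hordFb : ∀ w ∈ Fb, w.ord (x : F) = (w.ramificationIndex E : ℤ) * k := by
    intro w hw
    rw [hord w, Place.mem_fiber.1 hw]
  have hsub : Fb ⊆ Zf := by
    intro w hw
    rw [hZf, Set.Finite.mem_toFinset, Set.mem_ofPred_eq, hordFb w hw]
    exact mul_pos (hepos w) hkpos
  have hsumFb : ∑ w ∈ Fb, w.ord (x : F) = (Module.finrank E F : ℤ) * k := by
    rw [← sum_e hE h v0, Nat.cast_sum, Finset.sum_mul]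
    exact Finset.sum_congr rfl hordFb
  have hsplit := Finset.sum_sdiff (f := fun w : Place K F => w.ord (x : F)) hsub
  have hpos' : ∀ w ∈ Zf \ Fb, 0 < w.ord (x : F) := by
    intro w hw
    have := (Finset.mem_sdiff.1 hw).1
    rwa [hZf, Set.Finite.mem_toFinset, Set.mem_ofPred_eq] at this
  have hnonneg : 0 ≤ ∑ w ∈ Zf \ Fb, w.ord (x : F) :=
    Finset.sum_nonneg fun w hw => (hpos' w hw).le
  have hnpos : (0 : ℤ) < (Module.finrank E F : ℤ) := by
    exact_mod_cast (Module.finrank_pos : 0 < Module.finrank E F)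
  rw [hsumFb, hsum] at hsplit
  have hk1 : k = 1 := by
    by_contra hne
    have h2 : 2 ≤ k := by omega
    nlinarith
  have hrest : ∑ w ∈ Zf \ Fb, w.ord (x : F) = 0 := by
    rw [hk1] at hsplit
    linarith
  have hempty : ∀ w ∈ Zf, w ∈ Fb := by
    intro w hw
    by_contra hwF
    have hmem : w ∈ Zf \ Fb := Finset.mem_sdiff.2 ⟨hw, hwF⟩
    have h3 := (Finset.sum_eq_zero_iff_of_nonneg fun w hw => (hpos' w hw).le).1 hrest w hmem
    exact (hpos' w hmem).ne' h3
  have hiff : w.restrict E = v0 ↔ 0 < w.ord (x : F) := by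
    constructor
    · intro hw
      have := hsub (Place.mem_fiber.2 hw)
      rwa [hZf, Set.Finite.mem_toFinset, Set.mem_ofPred_eq] at this
    · intro hw
      refine Place.mem_fiber.1 (hempty w ?_)
      rw [hZf, Set.Finite.mem_toFinset, Set.mem_ofPred_eq]
      exact hw
  refine ⟨hiff, fun hw => ?_⟩
  rw [hordFb w (Place.mem_fiber.2 (hiff.2 hw)), hk1, mul_one]

theorem adjoin_gen_eq_top (g : F) : K⟮AdjoinSimple.gen K g⟯ = ⊤ := by
  apply IntermediateField.map_injective K⟮g⟯.val
  rw [IntermediateField.adjoin_map, ← AlgHom.fieldRange_eq_map, IntermediateField.fieldRange_val]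
  simp

theorem transcendental_gen {g : F} (hg : Transcendental K g) :
    Transcendental K (AdjoinSimple.gen K g) := by
  intro h
  apply hg
  have := h.algebraMap (A := F)
  rwa [AdjoinSimple.algebraMap_gen] at this

end Fermat.Agent.S19.W
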