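import Mathlib

/-!
# S19 / W / Lag : a polynomial whose values at the nonzero constants lie in a `K`-subspace has its coefficients there
[key S19/W-LAG]  (Mathlib only)

Proof: `d = R.natDegree`, nodes `a i = (i + 1 : K)`, `i ∈ Finset.range (d + 1)` (or any `d + 1` distinct nonzero elements of the infinite field `K`:
`Infinite.exists_subset_card_eq`, ...).  `Lagrange.eq_interpolate` over `F` with `v i = algebraMap K F (a i)`:
`R = ∑ i, C (R.eval (v i)) * Lagrange.basis s v i` and `Lagrange.basis s v i = (Lagrange.basis s a i).map (algebraMap K F)`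
(unfold `Lagrange.basis`, `Lagrange.basisDivisor`; `Polynomial.map_prod`, `map_mul`, `map_sub`, `map_inv₀`).  So
`R.coeff j = ∑ i, R.eval (v i) * algebraMap K F ((Lagrange.basis s a i).coeff j) = ∑ i, (..) • R.eval (v i) ∈ V`.
-/

set_option autoImplicit false

namespace Fermat.Agent.S19.W

open Polynomial

theorem coeff_mem_of_eval_mem {K F : Type*} [Field K] [Field F] [Algebra K F] [Infinite K]
    (V : Submodule K F) (R : F[X]) (hR : ∀ a : K, a ≠ 0 → R.eval (algebraMap K F a) ∈ V) (j : ℕ) :
    R.coeff j ∈ V := by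
  classical
  set d := R.natDegree with hd
  obtain ⟨a, ha_inj, ha0⟩ : ∃ a : Fin (d + 1) → K, Function.Injective a ∧ ∀ i, a i ≠ 0 := by
    have hinf : Infinite {x : K // x ≠ 0} := by
      have : ({0}ᶜ : Set K).Infinite := (Set.finite_singleton (0 : K)).infinite_compl
      exact this.to_subtype
    let e := Infinite.natEmbedding {x : K // x ≠ 0}
    exact ⟨fun i => (e i : K), fun i i' hii => Fin.ext (e.injective (Subtype.ext hii)),
      fun i => (e i).2⟩
  have hdet : IsUnit (Matrix.vandermonde a).det :=
    (Matrix.det_vandermonde_ne_zero_iff.2 ha_inj).isUnit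
  have hev : ∀ i, R.eval (algebraMap K F (a i)) =
      ∑ k : Fin (d + 1), Matrix.vandermonde a i k • R.coeff k := by
    intro i
    rw [Polynomial.eval_eq_sum_range, Finset.sum_range]
    refine Finset.sum_congr rfl fun k _ => ?_
    rw [Matrix.vandermonde_apply, Algebra.smul_def, map_pow, mul_comm]
  by_cases hj : j ≤ d
  · have key : R.coeff j = ∑ i, (Matrix.vandermonde a)⁻¹ ⟨j, by omega⟩ i •
        R.eval (algebraMap K F (a i)) := by
      simp_rw [hev, Finset.smul_sum, smul_smul]
      rw [Finset.sum_comm]
      simp_rw [← Finset.sum_smul, ← Matrix.mul_apply, Matrix.nonsing_inv_mul _ hdet,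
        Matrix.one_apply, ite_smul, one_smul, zero_smul]
      rw [Finset.sum_ite_eq]
      simp
    rw [key]
    exact V.sum_mem fun i _ => V.smul_mem _ (hR _ (ha0 i))
  · rw [Polynomial.coeff_eq_zero_of_natDegree_lt (by omega)]
    exact V.zero_mem

end Fermat.Agent.S19.W
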