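import Fermat.Agent.S19.W.Tower
import Fermat.Agent.S19.W.Lag

/-!
# S19 / W / NormPoly : reduction of polynomials at a place, multiplicities of the roots      [helper28]
-/

set_option autoImplicit false
set_option linter.unusedSectionVars false

noncomputable section

namespace Fermat.Agent.S19.W

open AlgebraicCurve Fermat.Agent.S37 Fermat.Agent.S27 Polynomial

variable {K F : Type*} [Field K] [Field F] [Algebra K F] [IsAlgClosed K] [CharZero K]

/-- `{x | x = 0 ∨ s ≤ ord x}` -/
def Vs (P : Place K F) (s : ℤ) : Submodule K F where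
  carrier := {x | x = 0 ∨ s ≤ P.ord x}
  zero_mem' := Or.inl rfl
  add_mem' := by
    intro x y hx hy
    have hx' : P.adicValuation x ≤ WithZero.exp (-s) :=
      P.adicValuation_le_exp_iff.2 (by rwa [neg_neg])
    have hy' : P.adicValuation y ≤ WithZero.exp (-s) :=
      P.adicValuation_le_exp_iff.2 (by rwa [neg_neg])
    have := P.adicValuation_le_exp_iff.1 ((Valuation.map_add _ x y).trans (max_le hx' hy'))
    rwa [neg_neg] at this
  smul_mem' := by
    intro c x hx
    have hx' : P.adicValuation x ≤ WithZero.exp (-s) :=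
      P.adicValuation_le_exp_iff.2 (by rwa [neg_neg])
    have := P.adicValuation_le_exp_iff.1 (AR.adic_smul_le P c hx')
    rwa [neg_neg] at this

theorem mem_Vs {P : Place K F} {s : ℤ} {x : F} : x ∈ Vs P s ↔ x = 0 ∨ s ≤ P.ord x := Iff.rfl

/-- the valuation ring as a subring -/
abbrev Ov (v : Place K F) : Subring F := v.toValuationSubring.toSubring

theorem mem_Ov {v : Place K F} {x : F} : x ∈ Ov v ↔ Reg v x := Iff.rfl

/-- the value at `v` as a ring homomorphism -/
def rho (h : IsFF K F) (v : Place K F) : Ov v →+* K where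
  toFun x := val v (x : F)
  map_one' := by simpa using val_algebraMap h v (1 : K)
  map_mul' x y := val_mul h x.2 y.2
  map_zero' := by simpa using val_algebraMap h v (0 : K)
  map_add' x y := val_add h x.2 y.2

theorem rho_apply (h : IsFF K F) (v : Place K F) (x : Ov v) : rho h v x = val v (x : F) := rfl

/-- constants in the valuation ring -/
def cO (v : Place K F) (c : K) : Ov v := ⟨algebraMap K F c, reg_algebraMap v c⟩

theorem rho_cO (h : IsFF K F) (v : Place K F) (c : K) : rho h v (cO v c) = c :=
  val_algebraMap h v c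

theorem ord_eq_zero_of_rho_ne (h : IsFF K F) (v : Place K F) (b : Ov v) (hb : rho h v b ≠ 0) :
    (b : F) ≠ 0 ∧ v.ord (b : F) = 0 := by
  have h1 : ¬ Van v (b : F) := fun hv => hb ((val_eq_zero_iff h b.2).2 hv)
  have h2 : 0 ≤ v.ord (b : F) := reg_iff.1 b.2
  constructor
  · intro h0
    exact h1 (Or.inl h0)
  · by_contra h3
    exact h1 (Or.inr (lt_of_le_of_ne h2 (Ne.symm h3)))

/-- **multiplicity bound** -/
theorem pow_dvd_of_ord (h : IsFF K F) (v : Place K F) (P₀ : (Ov v)[X]) (c : K) (t : F)
    (ht : v.ord t = 1) (s : ℕ) (hne : P₀.map (rho h v) ≠ 0)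
    (hs : ∀ a : K, a ≠ 0 →
      (P₀.map (Ov v).subtype).eval (t * algebraMap K F a + algebraMap K F c) ∈ Vs v s) :
    (X - C c) ^ s ∣ P₀.map (rho h v) := by
  rw [← le_rootMultiplicity_iff hne]
  set m := rootMultiplicity c (P₀.map (rho h v)) with hm
  set T₀ : (Ov v)[X] := P₀.comp (X + C (cO v c)) with hT₀
  have hT1 : T₀.map (rho h v) = (P₀.map (rho h v)).comp (X + C c) := by
    rw [hT₀, Polynomial.map_comp, Polynomial.map_add, Polynomial.map_X, Polynomial.map_C, rho_cO]
  have hT2 : T₀.map (Ov v).subtype =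
      (P₀.map (Ov v).subtype).comp (X + C (algebraMap K F c)) := by
    rw [hT₀, Polynomial.map_comp, Polynomial.map_add, Polynomial.map_X, Polynomial.map_C]
    rfl
  have hb : rho h v (T₀.coeff m) ≠ 0 := by
    rw [← Polynomial.coeff_map, hT1, hm, rootMultiplicity_eq_natTrailingDegree]
    have hne2 : (P₀.map (rho h v)).comp (X + C c) ≠ 0 := by
      intro h0
      apply hne
      have := congrArg (fun q => q.comp (X - C c)) h0
      simpa [Polynomial.comp_assoc] using this
    exact (trailingCoeff_nonzero_iff_nonzero.2 hne2)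
  obtain ⟨hb0, hb1⟩ := ord_eq_zero_of_rho_ne h v _ hb
  have hQ := coeff_mem_of_eval_mem (Vs v s) ((T₀.map (Ov v).subtype).comp (C t * X)) (by
    intro a ha
    rw [eval_comp, hT2, eval_comp]
    simpa using hs a ha) m
  rw [comp_C_mul_X_coeff, Polynomial.coeff_map] at hQ
  have ht0 : t ≠ 0 := by
    rintro rfl
    rw [Place.ord_zero] at ht
    exact zero_ne_one ht
  rcases hQ with hQ | hQ
  · exact absurd hQ (mul_ne_zero hb0 (pow_ne_zero _ ht0))
  · rw [v.ord_mul (by exact hb0) (pow_ne_zero _ ht0)] at hQ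
    have h3 : v.ord (t ^ m) = m := by
      have := v.ord_zpow t (m : ℤ)
      rw [zpow_natCast, ht, mul_one] at this
      exact this
    rw [h3] at hQ
    have h4 : v.ord ((Ov v).subtype (T₀.coeff m)) = 0 := hb1
    rw [h4, zero_add] at hQ
    exact_mod_cast hQ

end Fermat.Agent.S19.W
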