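import Fermat.Agent.S19.W.NormPoly

/-!
# S19 / W / NormPoly2 : the reduction at `v` of the characteristic polynomial of `f : F'`      [helper28]
-/

set_option autoImplicit false
set_option linter.unusedSectionVars false

noncomputable section

namespace Fermat.Agent.S19.W

open AlgebraicCurve Fermat.Agent.S37 Fermat.Agent.S27 Polynomial

variable {K F F' : Type*} [Field K] [Field F] [Field F'] [Algebra K F] [Algebra K F']
  [IsAlgClosed K] [CharZero K] [Algebra F F'] [IsScalarTower K F F'] [Module.Finite F F']

variable (F) in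
/-- the characteristic polynomial of `f` -/
def cp (f : F') : F[X] := (Algebra.lmul F F' f).charpoly

theorem cp_eval (f : F') (x : F) :
    (cp F f).eval x = Algebra.norm F (algebraMap F F' x - f) := by
  rw [cp, LinearMap.eval_charpoly, Algebra.norm_apply, map_sub (Algebra.lmul F F'),
    AlgHom.commutes]

theorem cp_monic (f : F') : (cp F f).Monic := LinearMap.charpoly_monic _

theorem cp_natDegree (f : F') : (cp F f).natDegree = Module.finrank F F' :=
  LinearMap.charpoly_natDegree _

variable [HasPrincipalDivisors K F']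

theorem reg_norm (h : IsFF K F) (h' : IsFF K F') (v : Place K F) {g : F'}
    (hg : ∀ w ∈ v.fiber F', Reg w g) : Reg v (Algebra.norm F g) := by
  rcases eq_or_ne g 0 with rfl | hg0
  · rw [Algebra.norm_zero]
    exact zero_mem _
  · rw [reg_iff, sum_ord h h' v hg0]
    exact Finset.sum_nonneg fun w hw => reg_iff.1 (hg w hw)

theorem reg_algebraMap' (v : Place K F) {w : Place K F'} (hw : w ∈ v.fiber F') {x : F}
    (hx : Reg v x) : Reg w (algebraMap F F' x) := by
  rw [reg_iff] at hx ⊢
  rw [w.ord_restrict, Place.mem_fiber.1 hw]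
  positivity

theorem exists_lift (h : IsFF K F) (h' : IsFF K F') (v : Place K F) {f : F'}
    (hf : ∀ w ∈ v.fiber F', Reg w f) : ∃ P₀ : (Ov v)[X], P₀.map (Ov v).subtype = cp F f := by
  rw [← mem_lifts, lifts_iff_coeff_lifts]
  intro j
  have h1 := coeff_mem_of_eval_mem (Vs v 0) (cp F f) (by
    intro a _
    rw [cp_eval]
    exact Or.inr (reg_iff.1 (reg_norm h h' v fun w hw =>
      (reg_algebraMap' v hw (reg_algebraMap v a)).sub (hf w hw)))) j
  have h2 : Reg v ((cp F f).coeff j) := by
    rcases h1 with h1 | h1
    · rw [h1]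
      exact zero_mem _
    · exact reg_iff.2 h1
  exact ⟨⟨_, h2⟩, rfl⟩

section Lift

variable (h : IsFF K F) (v : Place K F) {f : F'} {P₀ : (Ov v)[X]}

theorem lift_monic (hP : P₀.map (Ov v).subtype = cp F f) : (P₀.map (rho h v)).Monic := by
  have h1 : P₀.Monic := monic_of_injective (f := (Ov v).subtype) Subtype.val_injective
    (by rw [hP]; exact cp_monic f)
  exact h1.map _

theorem lift_natDegree (hP : P₀.map (Ov v).subtype = cp F f) :
    (P₀.map (rho h v)).natDegree = Module.finrank F F' := by
  have h1 : P₀.Monic := monic_of_injective (f := (Ov v).subtype) Subtype.val_injective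
    (by rw [hP]; exact cp_monic f)
  rw [h1.natDegree_map, ← cp_natDegree (F := F) f, ← hP, h1.natDegree_map]

theorem lift_eval (hP : P₀.map (Ov v).subtype = cp F f) (c : K) :
    (P₀.map (rho h v)).eval c = val v (Algebra.norm F (algebraMap K F' c - f)) := by
  have h1 := eval_map_apply (p := P₀) (rho h v) (cO v c)
  rw [rho_cO] at h1
  rw [h1, rho_apply]
  have h2 := eval_map_apply (p := P₀) (Ov v).subtype (cO v c)
  rw [hP, cp_eval] at h2
  have h3 : ((Ov v).subtype (eval (cO v c) P₀) : F) = ((eval (cO v c) P₀ : Ov v) : F) := rfl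
  rw [← h3, ← h2]
  have h4 : (Ov v).subtype (cO v c) = algebraMap K F c := rfl
  rw [h4, ← IsScalarTower.algebraMap_apply]

end Lift

end Fermat.Agent.S19.W
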