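import Fermat.Agent.S19.W.Eval

/-!
# S19 / W / P1 : reciprocity on the rational function field `E = K(x)`      [key S19/W-P1]

`x : E` transcendental, `K⟮x⟯ = ⊤`.
* `isFF_of_top` : `⟨x, hx, _⟩`, `E` is finite over `⊤` (`IntermediateField.topEquiv`, or `htop ▸ ...`; `finrank_top`).
* PLACES.  For `a : K`, `y = x - a` is transcendental and `K⟮y⟯ = K⟮x⟯ = ⊤` (as in `S27.AR.exists_zero`), so
  `S24.sum_ord_zeroPlaces y : ∑ᶠ v ∈ {v | 0 < v.ord y}, v.ord y = finrank K⟮y⟯ E = 1`: there is EXACTLY ONE place `P_a` with `0 < ord (x - a)` and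
  `ord_{P_a} (x - a) = 1` (a finite sum of positive integers equal to `1`; `S24.finite_zeroPlaces`).  Same for `x⁻¹` (`S24.adjoin_inv`, `S24.transcendental_inv`):
  exactly one place with `ord x < 0`, and `ord x = -1` there.
* For `p : K[X]`, `p ≠ 0`, `P` a place with `0 ≤ ord_P x`, `a = val P x`: `ord_P (aeval x p) = rootMultiplicity a p`  [`p = (X - C a)^m * q`, `q.eval a ≠ 0`
  (`Polynomial.exists_eq_pow_rootMultiplicity_mul_and_not_dvd`), `val P (aeval x q) = q.eval a ≠ 0` (`val` is a ring hom on regular elements: induction on `q`)], and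
  `val P (aeval x p) = p.eval a`.   At the pole `Pinf`: `ord (aeval x p) = - natDegree p`, `val Pinf (aeval x p / x ^ natDegree p) = leadingCoeff p`
  [`aeval x p / x^d = ∑ coeff_i x^(i-d)`, all terms with `i < d` vanish at `Pinf`; or `Polynomial.reverse` evaluated at `x⁻¹`].
* `p1_recip` : `r = aeval x p / aeval x q` (`IntermediateField.mem_adjoin_simple_iff`, `r ∈ K⟮x⟯ = ⊤`).  Divide `p`, `q` by the powers of `X`: `ord_{P0} r = 0` says that the
  multiplicities of `0` agree, so WLOG `p.eval 0 ≠ 0 ≠ q.eval 0`.  `ord_{Pinf} r = 0`: `natDegree p = natDegree q`.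
  `val P0 r = p(0)/q(0)`, `val Pinf r = lc p / lc q`.
  `evalD x Dr = ∏_{a ∈ roots p ∪ roots q} a ^ (mult_a p - mult_a q)` (the support of `Dr` is contained in `{P_a}`; `a ↦ P_a` is injective; `val P_a x = a`)
  `= (roots p).prod / (roots q).prod`, and `(roots p).prod = (-1)^deg p * p(0) / lc p` (`IsAlgClosed.splits`, `Polynomial.prod_roots_eq_coeff_zero_of_monic_of_splits` /
  `Polynomial.eq_prod_roots_of_splits_id` evaluated at `0`).
-/

set_option autoImplicit false
set_option linter.unusedSectionVars false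

noncomputable section

namespace Fermat.Agent.S19.W

open AlgebraicCurve Fermat.Agent.S37 Fermat.Agent.S27 IntermediateField

variable {K E : Type*} [Field K] [Field E] [Algebra K E] [IsAlgClosed K] [CharZero K]

theorem p1_fin {x : E} (htop : K⟮x⟯ = ⊤) : FiniteDimensional K⟮x⟯ E := by
  rw [htop]
  exact Module.finite_of_finrank_pos (by rw [IntermediateField.finrank_top]; exact one_pos)

theorem isFF_of_top (x : E) (hx : Transcendental K x) (htop : K⟮x⟯ = ⊤) : IsFF K E :=
  ⟨x, hx, p1_fin htop⟩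

/-- a generator has exactly one zero, and it is simple -/
theorem p1_uniq {y : E} (hy : Transcendental K y) (htop : K⟮y⟯ = ⊤) {P Q : Place K E}
    (hP : 0 < P.ord y) (hQ : 0 < Q.ord y) : P = Q ∧ P.ord y = 1 := by
  classical
  have hfin := p1_fin htop
  have hsum := S24.sum_ord_zeroPlaces y hy hfin
  have hZ := S24.finite_zeroPlaces y hy hfin
  have h1 : Module.finrank K⟮y⟯ E = 1 := by
    rw [htop]; exact IntermediateField.finrank_top
  rw [h1, finsum_mem_eq_finite_toFinset_sum _ hZ] at hsum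
  have hmem : ∀ v : Place K E, v ∈ hZ.toFinset ↔ 0 < v.ord y := fun v => by
    rw [Set.Finite.mem_toFinset]; rfl
  have hcard : (hZ.toFinset.card : ℤ) ≤ 1 := by
    have : ∑ v ∈ hZ.toFinset, (1 : ℤ) ≤ ∑ v ∈ hZ.toFinset, v.ord y :=
      Finset.sum_le_sum fun v hv => (hmem v).1 hv
    rw [hsum] at this
    simpa using this
  constructor
  · exact Finset.card_le_one.1 (by exact_mod_cast hcard) P ((hmem P).2 hP) Q ((hmem Q).2 hQ)
  · have : P.ord y ≤ ∑ v ∈ hZ.toFinset, v.ord y :=
      Finset.single_le_sum (f := fun v : Place K E => v.ord y)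
        (fun v hv => ((hmem v).1 hv).le) ((hmem P).2 hP)
    rw [hsum] at this
    simp only [Nat.cast_one] at this
    omega

theorem p1_trans_sub {x : E} (hx : Transcendental K x) (c : K) :
    Transcendental K (x - algebraMap K E c) := by
  intro hy
  apply hx
  have := hy.add (isAlgebraic_algebraMap (A := E) c)
  rwa [sub_add_cancel] at this

theorem p1_top_sub {x : E} (htop : K⟮x⟯ = ⊤) (c : K) : K⟮x - algebraMap K E c⟯ = ⊤ := by
  rw [← htop]
  apply le_antisymm
  · rw [IntermediateField.adjoin_simple_le_iff]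
    exact sub_mem (IntermediateField.mem_adjoin_simple_self K x) (IntermediateField.algebraMap_mem _ c)
  · rw [IntermediateField.adjoin_simple_le_iff]
    have := add_mem (IntermediateField.mem_adjoin_simple_self K (x - algebraMap K E c))
      (IntermediateField.algebraMap_mem (IntermediateField.adjoin K {x - algebraMap K E c}) c)
    rwa [sub_add_cancel] at this

open Polynomial in
theorem p1_aeval (h : IsFF K E) {x : E} {P : Place K E} (hP : Reg P x) (p : K[X]) :
    Reg P (aeval x p) ∧ val P (aeval x p) = p.eval (val P x) := by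
  induction p using Polynomial.induction_on' with
  | add p q hp hq =>
    rw [map_add, eval_add]
    exact ⟨hp.1.add hq.1, by rw [val_add h hp.1 hq.1, hp.2, hq.2]⟩
  | monomial n a =>
    rw [aeval_monomial, eval_monomial]
    exact ⟨(reg_algebraMap P a).mul (hP.pow n), by
      rw [val_mul h (reg_algebraMap P a) (hP.pow n), val_algebraMap h, val_pow h hP]⟩

theorem p1_aeval_ne {x : E} (hx : Transcendental K x) {p : Polynomial K} (hp : p ≠ 0) :
    Polynomial.aeval x p ≠ 0 := fun h0 => hx ⟨p, hp, h0⟩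

/-- a regular element with non zero value has order `0` -/
theorem p1_ord_eq_zero (h : IsFF K E) {P : Place K E} {f : E} (hf : Reg P f) (hv : val P f ≠ 0) :
    P.ord f = 0 := by
  have h1 : 0 ≤ P.ord f := reg_iff.1 hf
  by_contra hne
  exact hv ((val_eq_zero_iff h hf).2 (Or.inr (lt_of_le_of_ne h1 (Ne.symm hne))))

theorem p1_ord_sub (h : IsFF K E) {x : E} (hx : Transcendental K x) (htop : K⟮x⟯ = ⊤)
    {P : Place K E} (hP : Reg P x) : P.ord (x - algebraMap K E (val P x)) = 1 := by
  have h1 := van_sub_val h hP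
  have h2 : x - algebraMap K E (val P x) ≠ 0 := fun h0 =>
    p1_trans_sub hx (val P x) (by rw [h0]; exact isAlgebraic_zero)
  have h3 : 0 < P.ord (x - algebraMap K E (val P x)) := h1.resolve_left h2
  exact (p1_uniq (p1_trans_sub hx _) (p1_top_sub htop _) h3 h3).2

open Polynomial in
theorem p1_ord_aeval (h : IsFF K E) {x : E} (hx : Transcendental K x) (htop : K⟮x⟯ = ⊤)
    {P : Place K E} (hP : Reg P x) {p : K[X]} (hp : p ≠ 0) :
    P.ord (aeval x p) = (p.rootMultiplicity (val P x) : ℤ) := by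
  obtain ⟨q, hq, hnd⟩ := exists_eq_pow_rootMultiplicity_mul_and_not_dvd p hp (val P x)
  have hq0 : q ≠ 0 := fun h0 => hnd (h0 ▸ dvd_zero _)
  have hqe : q.eval (val P x) ≠ 0 := fun h0 => hnd (dvd_iff_isRoot.2 h0)
  have h1 : aeval x p = (x - algebraMap K E (val P x)) ^ (p.rootMultiplicity (val P x))
      * aeval x q := by
    conv_lhs => rw [hq]
    rw [map_mul, map_pow, map_sub, aeval_X, aeval_C]
  have h2 : x - algebraMap K E (val P x) ≠ 0 := fun h0 =>
    p1_trans_sub hx (val P x) (by rw [h0]; exact isAlgebraic_zero)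
  have h3 : P.ord (aeval x q) = 0 :=
    p1_ord_eq_zero h (p1_aeval h hP q).1 (by rw [(p1_aeval h hP q).2]; exact hqe)
  rw [h1, P.ord_mul (pow_ne_zero _ h2) (p1_aeval_ne hx hq0), h3, ← zpow_natCast, P.ord_zpow,
    p1_ord_sub h hx htop hP, mul_one, add_zero]

theorem p1_val_div (h : IsFF K E) {P : Place K E} {f g : E} (hf : Reg P f) (hg : Reg P g)
    (hv : val P g ≠ 0) : val P (f / g) = val P f / val P g := by
  have hg0 : g ≠ 0 := by
    rintro rfl
    exact hv ((val_eq_zero_iff h hg).2 (Or.inl rfl))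
  have ho := p1_ord_eq_zero h hg hv
  have hgi : Reg P g⁻¹ := reg_iff.2 (by rw [Place.ord_inv, ho, neg_zero])
  rw [div_eq_mul_inv, val_mul h hf hgi, val_inv h ho hg0, div_eq_mul_inv]

theorem p1_inj (h : IsFF K E) {x : E} (hx : Transcendental K x) (htop : K⟮x⟯ = ⊤)
    {P Q : Place K E} (hP : Reg P x) (hQ : Reg Q x) (hPQ : val P x = val Q x) : P = Q := by
  have h1 := p1_ord_sub h hx htop hP
  have h2 := p1_ord_sub h hx htop hQ
  rw [← hPQ] at h2
  exact (p1_uniq (p1_trans_sub hx (val P x)) (p1_top_sub htop (val P x)) (by omega) (by omega)).1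

theorem p1_surj (h : IsFF K E) {x : E} (hx : Transcendental K x) (htop : K⟮x⟯ = ⊤) (a : K) :
    ∃ P : Place K E, Reg P x ∧ val P x = a := by
  obtain ⟨P, hP⟩ := AR.exists_zero hx (p1_fin htop) a
  refine ⟨P, ?_, val_eq_of_van h (Or.inr hP)⟩
  have := (reg_iff.2 hP.le).add (reg_algebraMap P a)
  rwa [sub_add_cancel] at this

theorem p1_reg_of_ne {x : E} (hx : Transcendental K x) (htop : K⟮x⟯ = ⊤)
    {P Pinf : Place K E} (hinf : Pinf.ord x < 0) (hP : P ≠ Pinf) : Reg P x := by
  by_contra hn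
  rw [reg_iff, not_le] at hn
  apply hP
  have ht : K⟮x⁻¹⟯ = ⊤ := by rw [S24.adjoin_inv_eq, htop]
  exact (p1_uniq (S24.transcendental_inv x hx) ht (by rw [Place.ord_inv]; omega)
    (by rw [Place.ord_inv]; omega)).1

open Polynomial in
/-- behaviour at the pole -/
theorem p1_pole (h : IsFF K E) {x : E} (hx : Transcendental K x) {Pinf : Place K E}
    (hinf : Pinf.ord x < 0) (p : K[X]) :
    aeval x p = aeval x⁻¹ p.reverse * x ^ p.natDegree ∧ Reg Pinf (aeval x⁻¹ p.reverse) ∧
      val Pinf (aeval x⁻¹ p.reverse) = p.leadingCoeff := by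
  have hx0 : x ≠ 0 := by
    rintro rfl
    exact hx isAlgebraic_zero
  have hreg : Reg Pinf x⁻¹ := reg_iff.2 (by rw [Place.ord_inv]; omega)
  have hval : val Pinf x⁻¹ = 0 :=
    (val_eq_zero_iff h hreg).2 (Or.inr (by rw [Place.ord_inv]; omega))
  refine ⟨?_, (p1_aeval h hreg _).1, ?_⟩
  · let _ : Invertible x := invertibleOfNonzero hx0
    have := eval₂_reverse_mul_pow (algebraMap K E) x p
    rw [invOf_eq_inv] at this
    exact this.symm
  · rw [(p1_aeval h hreg _).2, hval, ← coeff_zero_eq_eval_zero, coeff_zero_reverse]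

open Polynomial in
theorem p1_prod_roots {p : K[X]} (hp0 : p.eval 0 ≠ 0) :
    p.roots.prod = p.eval 0 / ((-1) ^ p.natDegree * p.leadingCoeff) := by
  have hp : p ≠ 0 := by
    rintro rfl
    simp at hp0
  have h1 := (IsAlgClosed.splits p).coeff_zero_eq_leadingCoeff_mul_prod_roots
  rw [coeff_zero_eq_eval_zero] at h1
  have h2 : ((-1 : K) ^ p.natDegree * p.leadingCoeff) ≠ 0 :=
    mul_ne_zero (pow_ne_zero _ (by norm_num)) (leadingCoeff_ne_zero.2 hp)
  rw [h1, mul_div_cancel_left₀ _ h2]

open Polynomial in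
theorem p1_recip_core (x : E) (hx : Transcendental K x) (htop : K⟮x⟯ = ⊤) (p q : K[X])
    (hp0 : p.eval 0 ≠ 0) (hq0 : q.eval 0 ≠ 0)
    (Dr : Divisor K E) (hDr : ∀ P, Dr P = P.ord (aeval x p / aeval x q)) (P0 Pinf : Place K E)
    (h0 : 0 < P0.ord x) (hinf : Pinf.ord x < 0)
    (hrinf : Pinf.ord (aeval x p / aeval x q) = 0) :
    evalD x Dr = val P0 (aeval x p / aeval x q) / val Pinf (aeval x p / aeval x q) := by
  classical
  have h := isFF_of_top x hx htop
  have hx0 : x ≠ 0 := by
    rintro rfl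
    exact hx isAlgebraic_zero
  have hp : p ≠ 0 := by
    rintro rfl
    simp at hp0
  have hq : q ≠ 0 := by
    rintro rfl
    simp at hq0
  have hAp := p1_aeval_ne hx hp
  have hAq := p1_aeval_ne hx hq
  -- the orders at the finite places
  have hb : ∀ P : Place K E, Reg P x →
      Dr P = (p.rootMultiplicity (val P x) : ℤ) - q.rootMultiplicity (val P x) := by
    intro P hP
    rw [hDr, div_eq_mul_inv, P.ord_mul hAp (inv_ne_zero hAq), P.ord_inv,
      p1_ord_aeval h hx htop hP hp, p1_ord_aeval h hx htop hP hq, sub_eq_add_neg]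
  have hsupp : ∀ P ∈ Dr.support, Reg P x := by
    intro P hP
    apply p1_reg_of_ne hx htop hinf
    rintro rfl
    rw [Finsupp.mem_support_iff, hDr, hrinf] at hP
    exact hP rfl
  -- the value at `P0`
  have hreg0 : Reg P0 x := reg_iff.2 h0.le
  have hval0 : val P0 x = 0 := (val_eq_zero_iff h hreg0).2 (Or.inr h0)
  have hv0 : val P0 (aeval x p / aeval x q) = p.eval 0 / q.eval 0 := by
    rw [p1_val_div h (p1_aeval h hreg0 p).1 (p1_aeval h hreg0 q).1
      (by rw [(p1_aeval h hreg0 q).2, hval0]; exact hq0), (p1_aeval h hreg0 p).2,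
      (p1_aeval h hreg0 q).2, hval0]
  -- the pole
  obtain ⟨ep, rp, vp⟩ := p1_pole h hx hinf p
  obtain ⟨eq, rq, vq⟩ := p1_pole h hx hinf q
  have hlp : p.leadingCoeff ≠ 0 := leadingCoeff_ne_zero.2 hp
  have hlq : q.leadingCoeff ≠ 0 := leadingCoeff_ne_zero.2 hq
  have op : Pinf.ord (aeval x⁻¹ p.reverse) = 0 := p1_ord_eq_zero h rp (by rw [vp]; exact hlp)
  have oq : Pinf.ord (aeval x⁻¹ q.reverse) = 0 := p1_ord_eq_zero h rq (by rw [vq]; exact hlq)
  have hBp : aeval x⁻¹ p.reverse ≠ 0 := fun h0 => hAp (by rw [ep, h0, zero_mul])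
  have hBq : aeval x⁻¹ q.reverse ≠ 0 := fun h0 => hAq (by rw [eq, h0, zero_mul])
  have hdeg : p.natDegree = q.natDegree := by
    have h1 := hrinf
    rw [div_eq_mul_inv, Pinf.ord_mul hAp (inv_ne_zero hAq), Pinf.ord_inv, ep, eq,
      Pinf.ord_mul hBp (pow_ne_zero _ hx0), Pinf.ord_mul hBq (pow_ne_zero _ hx0), op, oq,
      ← zpow_natCast, ← zpow_natCast, Pinf.ord_zpow, Pinf.ord_zpow] at h1
    have h2 : ((p.natDegree : ℤ) - q.natDegree) * Pinf.ord x = 0 := by linarith
    rcases mul_eq_zero.1 h2 with h3 | h3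
    · omega
    · omega
  have hvinf : val Pinf (aeval x p / aeval x q) = p.leadingCoeff / q.leadingCoeff := by
    have e : aeval x p / aeval x q = aeval x⁻¹ p.reverse / aeval x⁻¹ q.reverse := by
      rw [ep, eq, hdeg, mul_div_mul_right _ _ (pow_ne_zero _ hx0)]
    rw [e, p1_val_div h rp rq (by rw [vq]; exact hlq), vp, vq]
  -- the product
  set G : K → K := fun a => a ^ ((p.rootMultiplicity a : ℤ) - q.rootMultiplicity a) with hG
  set U : Finset K := p.roots.toFinset ∪ q.roots.toFinset with hU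
  have hU0 : ∀ a ∈ U, a ≠ 0 := by
    intro a ha
    rintro rfl
    rcases Finset.mem_union.1 ha with h1 | h1
    · exact hp0 ((mem_roots hp).1 (Multiset.mem_toFinset.1 h1))
    · exact hq0 ((mem_roots hq).1 (Multiset.mem_toFinset.1 h1))
  have e1 : evalD x Dr = ∏ P ∈ Dr.support, G (val P x) := by
    rw [evalD_eq_prod x Dr (Finset.Subset.refl _)]
    exact Finset.prod_congr rfl fun P hP => by rw [hb P (hsupp P hP)]
  have e2 : ∏ P ∈ Dr.support, G (val P x) = ∏ a ∈ Dr.support.image (fun P : Place K E => S27.val P x), G a := by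
    rw [Finset.prod_image]
    intro P hP Q hQ hPQ
    exact p1_inj h hx htop (hsupp P hP) (hsupp Q hQ) hPQ
  have e3 : ∏ a ∈ Dr.support.image (fun P : Place K E => S27.val P x), G a = ∏ a ∈ U, G a := by
    apply Finset.prod_subset
    · intro a ha
      obtain ⟨P, hP, rfl⟩ := Finset.mem_image.1 ha
      have h1 := Finsupp.mem_support_iff.1 hP
      rw [hb P (hsupp P hP)] at h1
      by_contra hn
      rw [hU, Finset.mem_union, not_or, Multiset.mem_toFinset, Multiset.mem_toFinset,
        ← Multiset.count_eq_zero, ← Multiset.count_eq_zero, count_roots, count_roots] at hn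
      rw [hn.1, hn.2] at h1
      exact h1 rfl
    · intro a _ haT
      obtain ⟨P, hP, rfl⟩ := p1_surj h hx htop a
      have h1 : Dr P = 0 := by
        by_contra hn
        exact haT (Finset.mem_image.2 ⟨P, Finsupp.mem_support_iff.2 hn, rfl⟩)
      rw [hb P hP] at h1
      simp only [hG]
      rw [h1, zpow_zero]
  have e4 : ∏ a ∈ U, G a = p.roots.prod / q.roots.prod := by
    rw [Finset.prod_multiset_count_of_subset p.roots U Finset.subset_union_left,
      Finset.prod_multiset_count_of_subset q.roots U Finset.subset_union_right,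
      ← Finset.prod_div_distrib]
    refine Finset.prod_congr rfl fun a ha => ?_
    simp only [hG]
    rw [zpow_sub₀ (hU0 a ha), zpow_natCast, zpow_natCast, count_roots, count_roots]
  rw [e1, e2, e3, e4, hv0, hvinf, p1_prod_roots hp0, p1_prod_roots hq0, hdeg]
  have hs : ((-1 : K) ^ q.natDegree) ≠ 0 := pow_ne_zero _ (by norm_num)
  field_simp

open Polynomial in
/-- reciprocity on `ℙ¹` for the pair `(x, r)` -/
theorem p1_recip (x : E) (hx : Transcendental K x) (htop : K⟮x⟯ = ⊤) {r : E} (hr : r ≠ 0)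
    (Dr : Divisor K E) (hDr : ∀ P, Dr P = P.ord r) (P0 Pinf : Place K E) (h0 : 0 < P0.ord x)
    (hinf : Pinf.ord x < 0) (hr0 : P0.ord r = 0) (hrinf : Pinf.ord r = 0) :
    evalD x Dr = val P0 r / val Pinf r := by
  have h := isFF_of_top x hx htop
  have hx0 : x ≠ 0 := by
    rintro rfl
    exact hx isAlgebraic_zero
  obtain ⟨p', q', hpq'⟩ := (mem_adjoin_simple_iff K r).1
    (show r ∈ K⟮x⟯ by rw [htop]; exact IntermediateField.mem_top)
  have hp' : p' ≠ 0 := by
    rintro rfl
    rw [map_zero, zero_div] at hpq'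
    exact hr hpq'
  have hq' : q' ≠ 0 := by
    rintro rfl
    rw [map_zero, div_zero] at hpq'
    exact hr hpq'
  have hreg0 : Reg P0 x := reg_iff.2 h0.le
  have hval0 : val P0 x = 0 := (val_eq_zero_iff h hreg0).2 (Or.inr h0)
  have hm : p'.rootMultiplicity 0 = q'.rootMultiplicity 0 := by
    have h1 := hr0
    rw [hpq', div_eq_mul_inv, P0.ord_mul (p1_aeval_ne hx hp') (inv_ne_zero (p1_aeval_ne hx hq')),
      P0.ord_inv, p1_ord_aeval h hx htop hreg0 hp', p1_ord_aeval h hx htop hreg0 hq', hval0] at h1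
    omega
  obtain ⟨p, hp, hpn⟩ := exists_eq_pow_rootMultiplicity_mul_and_not_dvd p' hp' 0
  obtain ⟨q, hq, hqn⟩ := exists_eq_pow_rootMultiplicity_mul_and_not_dvd q' hq' 0
  have hp0 : p.eval 0 ≠ 0 := fun h0 => hpn (dvd_iff_isRoot.2 h0)
  have hq0 : q.eval 0 ≠ 0 := fun h0 => hqn (dvd_iff_isRoot.2 h0)
  have hpq : r = aeval x p / aeval x q := by
    rw [hpq']
    conv_lhs => rw [hp, hq, hm]
    rw [map_mul, map_mul, map_pow, map_sub, aeval_X, aeval_C, map_zero, sub_zero,
      mul_div_mul_left _ _ (pow_ne_zero _ hx0)]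
  subst hpq
  exact p1_recip_core x hx htop p q hp0 hq0 Dr hDr P0 Pinf h0 hinf hrinf

end Fermat.Agent.S19.W
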