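import Fermat.Agent.S19.W.Eval

/-!
# S19 / W / P1x : a generator `y` of `E = K(y)` has exactly one zero, of order one      [helper15]
(`S24.sum_ord_zeroPlaces`, `finrank K⟮y⟯ E = 1`.)  Apply it to `x - a` and to `x⁻¹`.
-/

set_option autoImplicit false
set_option linter.unusedSectionVars false

noncomputable section

namespace Fermat.Agent.S19.W

open AlgebraicCurve Fermat.Agent.S37 Fermat.Agent.S27 IntermediateField

variable {K E : Type*} [Field K] [Field E] [Algebra K E] [IsAlgClosed K] [CharZero K]

theorem recip_finite_top : Module.Finite (⊤ : IntermediateField K E) E :=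
  Module.Finite.of_surjective (Algebra.linearMap (⊤ : IntermediateField K E) E)
    (fun e => ⟨⟨e, IntermediateField.mem_top⟩, rfl⟩)

theorem recip_finite_of_top {y : E} (htop : K⟮y⟯ = ⊤) : FiniteDimensional K⟮y⟯ E := by
  rw [htop]
  exact recip_finite_top

/-- a generator of `E = K(y)` has exactly one zero, of order one -/
theorem recip_zero_unique (y : E) (hy : Transcendental K y) (htop : K⟮y⟯ = ⊤) (P : Place K E)
    (hP : 0 < P.ord y) : P.ord y = 1 ∧ ∀ Q : Place K E, 0 < Q.ord y → Q = P := by
  classical
  have hfin := recip_finite_of_top htop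
  have hZ := S24.finite_zeroPlaces y hy hfin
  have hsum := S24.sum_ord_zeroPlaces y hy hfin
  have hrk : Module.finrank K⟮y⟯ E = 1 := by
    rw [htop]
    exact IntermediateField.finrank_top
  rw [hrk, finsum_mem_eq_finite_toFinset_sum _ hZ, Nat.cast_one] at hsum
  have hmem : ∀ Q : Place K E, Q ∈ hZ.toFinset ↔ 0 < Q.ord y := fun Q => by
    rw [Set.Finite.mem_toFinset]
    rfl
  have hnn : ∀ Q ∈ hZ.toFinset, 0 ≤ Q.ord y := fun Q hQ => ((hmem Q).1 hQ).le
  have huniq : ∀ Q : Place K E, 0 < Q.ord y → Q = P := by
    intro Q hQ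
    by_contra hne
    have hsub : ({Q, P} : Finset (Place K E)) ⊆ hZ.toFinset := by
      intro R hR
      rw [Finset.mem_insert, Finset.mem_singleton] at hR
      rcases hR with rfl | rfl
      · exact (hmem _).2 hQ
      · exact (hmem _).2 hP
    have h1 := Finset.sum_le_sum_of_subset_of_nonneg (f := fun v : Place K E => v.ord y) hsub
      (fun R hR _ => hnn R hR)
    rw [Finset.sum_pair hne, hsum] at h1
    omega
  refine ⟨?_, huniq⟩
  have h1 := Finset.single_le_sum (f := fun v : Place K E => v.ord y) hnn ((hmem P).2 hP)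
  rw [hsum] at h1
  have h2 : P.ord y ≤ 1 := h1
  omega

end Fermat.Agent.S19.W
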