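import Fermat.Agent.S19.W.Eval

/-!
# S19, layer W, key `S19/W-PUSH` : evaluation and push forward of divisors

`F'/F` finite, both function fields over `K`:  `val w (algebraMap F F' u) = val (w.restrict F) u` and
`evalD (algebraMap F F' u) E = evalD u (Divisor.pushforward F E)`.
-/

set_option autoImplicit false
set_option linter.unusedSectionVars false

noncomputable section

namespace Fermat.Agent.S19

open AlgebraicCurve Fermat.Agent.S37 Fermat.Agent.S27

variable {K F F' : Type*} [Field K] [Field F] [Field F'] [Algebra K F] [Algebra K F']
  [IsAlgClosed K] [CharZero K] [Algebra F F'] [IsScalarTower K F F'] [Module.Finite F F']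

theorem inertiaDeg_eq_one (h : IsFF K F) (h' : IsFF K F') (w : Place K F') :
    w.inertiaDeg F = 1 := by
  have h1 := w.deg_restrict_mul_inertiaDeg (F := F)
  rw [h.deg_eq_one, h'.deg_eq_one, one_mul] at h1
  exact h1

theorem ord_restrict_eq_zero_iff (w : Place K F') (u : F) :
    (w.restrict F).ord u = 0 ↔ w.ord (algebraMap F F' u) = 0 := by
  rw [w.ord_restrict u]
  have hepos : 0 < Place.ramificationIndex (F := F) w := w.ramificationIndex_pos (F := F)
  constructor
  · intro h0
    rw [h0, mul_zero]
  · intro h0
    rcases mul_eq_zero.1 h0 with h1 | h1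
    · exact absurd (by exact_mod_cast h1) hepos.ne'
    · exact h1

theorem val_restrict (h : IsFF K F) (h' : IsFF K F') (w : Place K F') {u : F}
    (hu : Reg (w.restrict F) u) : val w (algebraMap F F' u) = val (w.restrict F) u := by
  refine val_eq_of_van h' ?_
  have h1 := van_sub_val h hu
  rw [IsScalarTower.algebraMap_apply K F F', ← map_sub]
  rcases h1 with h1 | h1
  · left
    rw [h1, map_zero]
  · right
    rw [w.ord_restrict]
    have hepos : 0 < Place.ramificationIndex (F := F) w := w.ramificationIndex_pos (F := F)
    positivity

theorem nz_push {u : F} {E : Divisor K F'} (hE : NZ (algebraMap F F' u) E) :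
    NZ u (Divisor.pushforward F E) := by
  classical
  refine nz_iff.2 ⟨fun h0 => hE.1 (by rw [h0, map_zero]), fun P hP => ?_⟩
  rw [Divisor.pushforward_apply] at hP
  obtain ⟨w, hw, hw0⟩ := Finset.exists_ne_zero_of_sum_ne_zero hP
  have hwP : w.restrict F = P := by
    by_contra hne
    exact hw0 (if_neg hne)
  rw [← hwP, ord_restrict_eq_zero_iff]
  exact hE.2 w hw

/-- **(PUSH)** -/
theorem evalD_push (h : IsFF K F) (h' : IsFF K F') {u : F} {E : Divisor K F'}
    (hE : NZ (algebraMap F F' u) E) :
    evalD (algebraMap F F' u) E = evalD u (Divisor.pushforward F E) := by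
  classical
  induction E using Finsupp.induction with
  | zero => simp
  | single_add w n E hw hn ih =>
    have hsupp : (Finsupp.single w n + E).support = insert w E.support := by
      rw [Finsupp.support_add_eq, Finsupp.support_single _ hn]
      · rfl
      · rw [Finsupp.support_single _ hn]
        exact Finset.disjoint_singleton_left.2 hw
    have h1 : NZ (algebraMap F F' u) (Finsupp.single w n) :=
      NZ.single hE.1 (hE.2 w (by rw [hsupp]; exact Finset.mem_insert_self _ _)) n
    have h2 : NZ (algebraMap F F' u) E :=
      hE.mono (by rw [hsupp]; exact Finset.subset_insert _ _)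
    rw [evalD_add h' h1 h2, map_add, evalD_add h (nz_push h1) (nz_push h2), ih h2, evalD_single,
      Divisor.pushforward_single, evalD_single, inertiaDeg_eq_one h h', Nat.cast_one, mul_one,
      val_restrict h h' w (reg_of_ord ((ord_restrict_eq_zero_iff w u).2
        (hE.2 w (by rw [hsupp]; exact Finset.mem_insert_self _ _))))]

end Fermat.Agent.S19
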