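import Fermat.Agent.S19.W.NormD
import Fermat.Agent.S19.W.P1
import Fermat.Agent.S19.W.P1x
import Fermat.Agent.S19.W.Fib

/-!
# S19 / W / Recip : Weil reciprocity      [key S19/W-RECIP, helper15]

CASE 1: `g` constant.  CASE 2: `g` transcendental, `E = K⟮g⟯`, `γ = AdjoinSimple.gen K g`, `r = N_{F/E} f`, `Dγ = div γ = P0 - Pinf`
(`recip_zero_unique`: `γ` and `γ⁻¹` have exactly one zero, of order one, since `K⟮γ⟯ = ⊤`).
`Dg = pullback Dγ`, so `evalD f Dg = evalD r Dγ` (`evalD_norm`) `= val P0 r / val Pinf r = evalD γ (div r)` (`p1_recip`)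
`= evalD γ (pushforward Df)` (norm formula) `= evalD g Df` (`evalD_push`).   (`fib` is not needed.)
-/

set_option autoImplicit false
set_option linter.unusedSectionVars false
set_option linter.style.haveILetI false

noncomputable section

namespace Fermat.Agent.S19.W

open AlgebraicCurve Fermat.Agent.S37 Fermat.Agent.S27 IntermediateField

section P1x

variable {K E : Type*} [Field K] [Field E] [Algebra K E] [IsAlgClosed K] [CharZero K]

/-- reciprocity on `K(x)` in symmetric form -/
theorem recip_p1 (hE : IsFF K E) (x : E) (hx : Transcendental K x) (htop : K⟮x⟯ = ⊤) {r : E}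
    (hr : r ≠ 0) (Dr Dx : Divisor K E) (hDr : ∀ P, Dr P = P.ord r) (hDx : ∀ P, Dx P = P.ord x)
    (hd : ∀ P : Place K E, P.ord r = 0 ∨ P.ord x = 0) : evalD r Dx = evalD x Dr := by
  classical
  have hfin := recip_finite_of_top htop
  have hx0 : x ≠ 0 := fun h0 => hx (h0 ▸ isAlgebraic_zero)
  obtain ⟨P0, hP0⟩ := AR.exists_zero hx hfin 0
  rw [map_zero, sub_zero] at hP0
  have hxi : Transcendental K x⁻¹ := S24.transcendental_inv x hx
  have htopi : K⟮x⁻¹⟯ = ⊤ := by rw [S24.adjoin_inv_eq, htop]
  obtain ⟨Pinf, hPinf⟩ := AR.exists_zero hxi (recip_finite_of_top htopi) 0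
  rw [map_zero, sub_zero] at hPinf
  obtain ⟨h01, h0u⟩ := recip_zero_unique x hx htop P0 hP0
  obtain ⟨hi1, hiu⟩ := recip_zero_unique x⁻¹ hxi htopi Pinf hPinf
  have hinf : Pinf.ord x < 0 := by
    rw [Place.ord_inv] at hPinf
    omega
  have hne : P0 ≠ Pinf := by
    rintro rfl
    omega
  have hDx' : Dx = Finsupp.single P0 1 - Finsupp.single Pinf 1 := by
    ext P
    rw [hDx, Finsupp.sub_apply]
    rcases lt_trichotomy (P.ord x) 0 with hlt | heq | hgt
    · have h1 : P = Pinf := hiu P (by rw [Place.ord_inv]; omega)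
      subst h1
      rw [Finsupp.single_eq_same, Finsupp.single_eq_of_ne (Ne.symm hne)]
      rw [Place.ord_inv] at hi1
      omega
    · have h1 : P ≠ P0 := by
        rintro rfl
        omega
      have h2 : P ≠ Pinf := by
        rintro rfl
        omega
      rw [Finsupp.single_eq_of_ne h1, Finsupp.single_eq_of_ne h2, heq, sub_zero]
    · have h1 : P = P0 := h0u P hgt
      subst h1
      rw [Finsupp.single_eq_same, Finsupp.single_eq_of_ne hne, h01, sub_zero]
  have hr0 : P0.ord r = 0 := (hd P0).resolve_right (by omega)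
  have hrinf : Pinf.ord r = 0 := (hd Pinf).resolve_right (by omega)
  rw [p1_recip x hx htop hr Dr hDr P0 Pinf hP0 hinf hr0 hrinf, hDx',
    evalD_sub hE (NZ.single hr hr0 1) (NZ.single hr hrinf 1), evalD_single, evalD_single, zpow_one,
    zpow_one]

end P1x

variable {K F : Type*} [Field K] [Field F] [Algebra K F] [IsAlgClosed K] [CharZero K]

/-- **Weil reciprocity** -/
theorem recip (h : IsFF K F) {f g : F} (hf : f ≠ 0) (hg : g ≠ 0) (Df Dg : Divisor K F)
    (hDf : ∀ P, Df P = P.ord f) (hDg : ∀ P, Dg P = P.ord g)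
    (hd : ∀ P : Place K F, P.ord f = 0 ∨ P.ord g = 0) : evalD f Dg = evalD g Df := by
  classical
  by_cases hgc : g ∈ Set.range (algebraMap K F)
  · obtain ⟨c, rfl⟩ := hgc
    have hc : c ≠ 0 := fun h0 => hg (by rw [h0, map_zero])
    have h1 : Dg = 0 := by
      ext P
      rw [hDg, ord_algebraMap_eq_zero]
      rfl
    have h2 : Df = AR.dv h f := by
      ext P
      rw [hDf, AR.dv_apply h hf]
    rw [h1, evalD_zero, evalD_algebraMap h hc, h2, AR.degree_dv, zpow_zero]
  · have hgt : Transcendental K g := S24.Diff.transcendental_of_notMem_range g hgc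
    obtain ⟨x, hx, hfin⟩ := id h
    haveI : Module.Finite K⟮g⟯ F := S24.Diff.finiteDimensional_adjoin_of_transcendental x hfin g hgt
    haveI := h.hasPrincipalDivisors
    have hγ := transcendental_gen hgt
    have htop := adjoin_gen_eq_top (K := K) g
    have hE : IsFF K K⟮g⟯ := isFF_of_top (AdjoinSimple.gen K g) hγ htop
    have hγg : algebraMap K⟮g⟯ F (AdjoinSimple.gen K g) = g := AdjoinSimple.algebraMap_gen K g
    have hγ0 : AdjoinSimple.gen K g ≠ 0 := fun h0 => hg (by rw [← hγg, h0, map_zero])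
    have hDγ : ∀ v : Place K K⟮g⟯, AR.dv hE (AdjoinSimple.gen K g) v =
        v.ord (AdjoinSimple.gen K g) := fun v => AR.dv_apply hE hγ0 v
    have hpb : Dg = Divisor.pullback F (AR.dv hE (AdjoinSimple.gen K g)) := by
      ext w
      rw [Divisor.pullback_apply_eq_ord hDγ w, hγg, hDg]
    have hfγ : ∀ w : Place K F, (w.restrict K⟮g⟯).ord (AdjoinSimple.gen K g) ≠ 0 →
        w.ord f = 0 := by
      intro w hw
      refine (hd w).resolve_right ?_
      rw [← hγg]
      exact fun h0 => hw ((ord_restrict_eq_zero_iff w _).2 h0)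
    have hr : Algebra.norm K⟮g⟯ f ≠ 0 := Algebra.norm_ne_zero_iff.2 hf
    have hpush : ∀ v : Place K K⟮g⟯, Divisor.pushforward K⟮g⟯ Df v =
        v.ord (Algebra.norm K⟮g⟯ f) :=
      FFN.normFormula hE (fun w => S19.inertiaDeg_eq_one hE h w) f hf Df hDf
    have hNZ : NZ (algebraMap K⟮g⟯ F (AdjoinSimple.gen K g)) Df := by
      rw [hγg]
      exact nz_iff.2 ⟨hg, fun P hP => (hd P).resolve_left (by rw [← hDf]; exact hP)⟩
    calc evalD f Dg = evalD (Algebra.norm K⟮g⟯ f) (AR.dv hE (AdjoinSimple.gen K g)) := by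
          rw [hpb, evalD_norm hE h hf (fun w hw => hfγ w (by rw [← hDγ]; exact hw))]
      _ = evalD (AdjoinSimple.gen K g) (Divisor.pushforward K⟮g⟯ Df) :=
          recip_p1 hE _ hγ htop hr _ _ hpush hDγ (fun v => by
            by_cases hv : v.ord (AdjoinSimple.gen K g) = 0
            · exact Or.inr hv
            · exact Or.inl (ord_norm_eq_zero hE h v hf fun w hw =>
                hfγ w (by rw [Place.mem_fiber.1 hw]; exact hv)))
      _ = evalD g Df := by
          rw [← evalD_push hE h hNZ, hγg]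

end Fermat.Agent.S19.W
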