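import Fermat.Agent.S19.W.Push
import Fermat.Agent.S37.FFIdent
import Fermat.Agent.S37.FFNorm

/-!
# S19 / W / Tower : finite extensions `F'/F` of function fields      [key S19/W-TOWER]

* `sum_ord` : `S37.FFN.normFormula h (inertiaDeg_eq_one h h')`.
* `sum_e` : copy of the proof of `S37.IsFF.fundamentalIdentityAlong` (FFIdent.lean).
-/

set_option autoImplicit false
set_option linter.unusedSectionVars false

noncomputable section

namespace Fermat.Agent.S19.W

open AlgebraicCurve Fermat.Agent.S37 Fermat.Agent.S27 IsDedekindDomain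

variable {K F F' : Type*} [Field K] [Field F] [Field F'] [Algebra K F] [Algebra K F']
  [IsAlgClosed K] [CharZero K] [Algebra F F'] [IsScalarTower K F F'] [Module.Finite F F']

variable [HasPrincipalDivisors K F']

theorem sum_ord (h : IsFF K F) (h' : IsFF K F') (v : Place K F) {f : F'} (hf : f ≠ 0) :
    v.ord (Algebra.norm F f) = ∑ w ∈ v.fiber F', w.ord f := by
  classical
  obtain ⟨D, hD, -⟩ := HasPrincipalDivisors.exists_divisor (K := K) f hf
  rw [← FFN.normFormula h (fun w => inertiaDeg_eq_one h h' w) f hf D hD v,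
    Divisor.pushforward_apply, ← Finset.sum_filter]
  have h1 : ∑ w ∈ v.fiber F', w.ord f = ∑ w ∈ (v.fiber F').filter (fun w => w ∈ D.support),
      w.ord f := by
    rw [Finset.sum_filter]
    refine Finset.sum_congr rfl fun w _ => ?_
    split_ifs with hw
    · rfl
    · rw [← hD]
      exact Finsupp.notMem_support_iff.1 hw
  rw [h1]
  refine Finset.sum_congr ?_ fun w _ => ?_
  · ext w
    simp only [Finset.mem_filter, Place.mem_fiber]
    tauto
  · rw [hD, inertiaDeg_eq_one h h', Nat.cast_one, mul_one]

set_option linter.deprecated false in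
theorem sum_e (h : IsFF K F) (h' : IsFF K F') (v : Place K F) :
    ∑ w ∈ v.fiber F', w.ramificationIndex F = Module.finrank F F' := by
  refine h.tower_induction (F' := F') v _ ?_
  intro R _ _ _ _ _ _ _ S _ _ _ _ _ _ _ _ _ _ _ _ _ _ p hp
  subst hp
  have := p.isMaximal
  rw [sum_fiber_eq (S := S) p _
    (fun P => (Ideal.ramificationIdx' p.asIdeal P * Ideal.inertiaDeg' p.asIdeal P : ℕ)),
    Ideal.sum_ramification_inertia S F F' p.ne_bot]
  intro P hP
  have := P.isMaximal
  rw [ramificationIndex_ofHeightOneSpectrum p P, S24.inertiaDeg'_eq_one K]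
  simp

theorem fiber_nonempty (h : IsFF K F) (h' : IsFF K F') (v : Place K F) : (v.fiber F').Nonempty := by
  by_contra hne
  rw [Finset.not_nonempty_iff_eq_empty] at hne
  have h1 := sum_e h h' v
  rw [hne, Finset.sum_empty] at h1
  have : 0 < Module.finrank F F' := Module.finrank_pos
  omega

end Fermat.Agent.S19.W
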